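import Mathlib
import Fermat.Agent.LG.ArL
import Fermat.Agent.Conn.Zeta

/-!
# The valuation rings of the inertia field and of its extension by the `q`-th roots of unity
-/

set_option autoImplicit false

open IntermediateField IsLocalRing Fermat.Agent.LG Fermat.Agent.GaloisBasics Fermat.Agent.EC

noncomputable section

namespace Fermat.Agent.CD

local notation "Qb" => AlgebraicClosure ℚ
local notation "GQ" => (AlgebraicClosure ℚ ≃ₐ[ℚ] AlgebraicClosure ℚ)

variable {A : ValuationSubring Qb} {q : ℕ} {L : IntermediateField ℚ Qb}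

theorem mem_OL {z : L} : z ∈ OL A L ↔ A.valuation (z : Qb) ≤ 1 := by
  rw [ValuationSubring.mem_comap, A.valuation_le_one_iff]
  rfl

theorem val_coe_le (z : OL A L) : A.valuation ((z : L) : Qb) ≤ 1 := mem_OL.mp z.2

theorem isUnit_iff {z : OL A L} : IsUnit z ↔ A.valuation ((z : L) : Qb) = 1 := by
  constructor
  · rintro ⟨u, rfl⟩
    have h1 := val_coe_le (u : OL A L)
    have h2 := val_coe_le ((u⁻¹ : (OL A L)ˣ) : OL A L)
    have h3 : (((u : OL A L) : L) : Qb) * (((u⁻¹ : (OL A L)ˣ) : OL A L) : L) = 1 :=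
      congrArg (fun w : OL A L => ((w : L) : Qb)) u.mul_inv
    refine le_antisymm h1 ?_
    have h4 := congrArg A.valuation h3
    rw [map_mul, map_one] at h4
    rw [← h4]
    exact mul_le_of_le_one_right' h2
  · intro h1
    have hz0 : (z : L) ≠ 0 := by
      intro h0
      rw [h0] at h1
      simp at h1
    refine IsUnit.of_mul_eq_one ⟨(z : L)⁻¹, mem_OL.mpr ?_⟩ ?_
    · have : (((z : L)⁻¹ : L) : Qb) = ((z : L) : Qb)⁻¹ := rfl
      rw [this, map_inv₀, h1, inv_one]
    · apply Subtype.ext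
      exact mul_inv_cancel₀ hz0

theorem coe_ne_zero {z : OL A L} : ((z : L) : Qb) ≠ 0 ↔ z ≠ 0 := by
  constructor
  · rintro h rfl
    exact h rfl
  · intro h h0
    exact h (Subtype.ext (Subtype.ext h0))

/-- A criterion for an element of the valuation ring to be a uniformizer. -/
theorem irreducible_of_val {π : OL A L} (h0 : A.valuation ((π : L) : Qb) ≠ 0)
    (h1 : A.valuation ((π : L) : Qb) < 1)
    (h : ∀ x ∈ L, x ≠ 0 → ∃ s : ℤ, A.valuation x = A.valuation ((π : L) : Qb) ^ s) :
    Irreducible π := by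
  set c := A.valuation ((π : L) : Qb) with hc
  have hcpos : 0 < c := zero_lt_iff.mpr h0
  constructor
  · rw [isUnit_iff]
    exact h1.ne
  · intro a b hab
    by_contra hcon
    push Not at hcon
    rw [isUnit_iff, isUnit_iff] at hcon
    have hab' : ((π : L) : Qb) = ((a : L) : Qb) * ((b : L) : Qb) :=
      congrArg (fun w : OL A L => ((w : L) : Qb)) hab
    have hv := congrArg A.valuation hab'
    rw [map_mul, ← hc] at hv
    have ha0 : ((a : L) : Qb) ≠ 0 := by
      intro h0'; rw [h0', map_zero, zero_mul] at hv; exact h0 hv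
    have hb0 : ((b : L) : Qb) ≠ 0 := by
      intro h0'; rw [h0', map_zero, mul_zero] at hv; exact h0 hv
    obtain ⟨s, hs⟩ := h _ (a : L).2 ha0
    obtain ⟨t, ht⟩ := h _ (b : L).2 hb0
    have key : ∀ {u : ℤ}, c ^ u ≤ 1 → c ^ u ≠ 1 → 1 ≤ u := by
      intro u h2 h3
      by_contra hlt
      push Not at hlt
      rcases eq_or_lt_of_le (show u ≤ 0 by omega) with rfl | hu
      · exact h3 (zpow_zero _)
      · exact absurd h2 (not_le.mpr (one_lt_zpow_of_neg₀ hcpos h1 hu))
    have hs1 : 1 ≤ s := key (hs ▸ val_coe_le a) (hs ▸ hcon.1)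
    have ht1 : 1 ≤ t := key (ht ▸ val_coe_le b) (ht ▸ hcon.2)
    rw [hs, ht, ← zpow_add₀ h0] at hv
    have h6 : c ^ (s + t) < c := by
      conv_rhs => rw [← zpow_one c]
      rw [zpow_lt_zpow_iff_right_of_lt_one₀ hcpos h1]
      omega
    rw [← hv] at h6
    exact lt_irrefl _ h6

/-- The value group is infinite cyclic: the valuation ring is discrete. -/
theorem dvr_of_val {π : OL A L} (h0 : A.valuation ((π : L) : Qb) ≠ 0)
    (h1 : A.valuation ((π : L) : Qb) < 1)
    (h : ∀ x ∈ L, x ≠ 0 → ∃ s : ℤ, A.valuation x = A.valuation ((π : L) : Qb) ^ s) :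
    IsDiscreteValuationRing (OL A L) := by
  have hirr := irreducible_of_val h0 h1 h
  set c := A.valuation ((π : L) : Qb) with hc
  have hcpos : 0 < c := zero_lt_iff.mpr h0
  apply IsDiscreteValuationRing.ofHasUnitMulPowIrreducibleFactorization
  refine ⟨π, hirr, fun {z} hz => ?_⟩
  have hz0 : ((z : L) : Qb) ≠ 0 := coe_ne_zero.mpr hz
  obtain ⟨s, hs⟩ := h _ (z : L).2 hz0
  have hz1 := val_coe_le z
  have hs0 : 0 ≤ s := by
    by_contra hlt
    push Not at hlt
    have : 1 < c ^ s := one_lt_zpow_of_neg₀ hcpos h1 hlt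
    rw [← hs] at this
    exact absurd hz1 (not_le.mpr this)
  obtain ⟨n, rfl⟩ := Int.eq_ofNat_of_zero_le hs0
  refine ⟨n, ?_⟩
  have hw : A.valuation (((z : L) : Qb) / ((π : L) : Qb) ^ n) = 1 := by
    rw [map_div₀, hs, map_pow, zpow_natCast, div_self (pow_ne_zero n h0)]
  let w : OL A L := ⟨(z : L) / (π : L) ^ n, mem_OL.mpr (by
    change A.valuation (((z : L) : Qb) / ((π : L) : Qb) ^ n) ≤ 1
    exact hw.le)⟩
  obtain ⟨u, hu⟩ : IsUnit w := isUnit_iff.mpr hw
  refine ⟨u, ?_⟩
  rw [hu]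
  have hπ0 : (π : L) ≠ 0 := by
    intro h2
    apply h0
    rw [hc, h2]
    exact map_zero _
  apply Subtype.ext
  change (π : L) ^ n * ((z : L) / (π : L) ^ n) = _
  rw [mul_div_cancel₀ _ (pow_ne_zero n hπ0)]

theorem coe_natCast (n : ℕ) : (((n : OL A L) : L) : Qb) = (n : Qb) := by
  have h1 : ((n : OL A L) : L) = (n : L) := by
    induction n with
    | zero => simp
    | succ n ih => push_cast; rfl
  rw [h1]
  simp

theorem val_q_ne_zero (hq : q.Prime) : A.valuation (q : Qb) ≠ 0 := by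
  rw [Valuation.ne_zero_iff]
  exact_mod_cast hq.ne_zero

/-- (C4.1) the valuation ring of the inertia field is discrete -/
theorem dvr_KI (hq : q.Prime) (hA : A.LiesOverPrime q) : IsDiscreteValuationRing (OL A (KI A)) := by
  refine dvr_of_val (π := (q : OL A (KI A))) ?_ ?_ ?_
  · rw [coe_natCast]
    exact val_q_ne_zero hq
  · rw [coe_natCast]
    exact hA
  · intro x hx hx0
    rw [coe_natCast]
    exact exists_zpow A hq hA hx hx0

/-- (C4.1) `q` is a uniformizer of the inertia field -/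
theorem irreducible_q (hq : q.Prime) (hA : A.LiesOverPrime q) :
    Irreducible ((q : ℕ) : OL A (KI A)) := by
  refine irreducible_of_val (π := (q : OL A (KI A))) ?_ ?_ ?_
  · rw [coe_natCast]
    exact val_q_ne_zero hq
  · rw [coe_natCast]
    exact hA
  · intro x hx hx0
    rw [coe_natCast]
    exact exists_zpow A hq hA hx hx0

theorem prime_q (hq : q.Prime) (hA : A.LiesOverPrime q) : Prime ((q : ℕ) : OL A (KI A)) :=
  have := dvr_KI hq hA
  (irreducible_q hq hA).prime

/-- (C4.1) the inertia field is an arithmetic setting -/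
theorem ar_KI (hq : q.Prime) (hA : A.LiesOverPrime q) : Ar A q (KI A) where
  hq := hq
  hA := hA
  le := le_rfl
  dec := fun _ hσ _ hx => decomposition_KI A hσ hx
  dvr := dvr_KI hq hA

/-! ### The ramified extension -/

/-- valuations in the field generated by a root of an Eisenstein type polynomial -/
theorem exists_zpow_adjoin (hq : q.Prime) (hA : A.LiesOverPrime q) {ϖ : Qb}
    (hϖ : A.valuation ϖ ^ (q - 1) = A.valuation (q : Qb))
    {G : Polynomial (KI A)} (hG : G.Monic) (hdeg : G.natDegree = q - 1)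
    (hroot : Polynomial.aeval ϖ G = 0) {x : Qb} (hx : x ∈ adjoin (KI A) {ϖ}) (hx0 : x ≠ 0) :
    ∃ s : ℤ, A.valuation x = A.valuation ϖ ^ s := by
  classical
  have hq1 : 0 < q - 1 := by have := hq.one_lt; omega
  have hc0 : A.valuation ϖ ≠ 0 := by
    intro h0
    rw [h0, zero_pow hq1.ne'] at hϖ
    exact val_q_ne_zero hq hϖ.symm
  have hϖ0 : ϖ ≠ 0 := (Valuation.ne_zero_iff _).mp hc0
  have hc1 : A.valuation ϖ < 1 := by
    by_contra hle
    rw [not_lt] at hle
    have h1 := one_le_pow_of_one_le' hle (q - 1)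
    rw [hϖ] at h1
    exact absurd (show A.valuation (q : Qb) < 1 from hA) (not_lt.mpr h1)
  have halg : IsIntegral (KI A) ϖ := ⟨G, hG, by rw [← hroot]; rfl⟩
  have hx' : x ∈ (adjoin (KI A) {ϖ}).toSubalgebra := hx
  rw [adjoin_simple_toSubalgebra_of_isAlgebraic halg.isAlgebraic,
    Algebra.adjoin_singleton_eq_range_aeval] at hx'
  obtain ⟨P, hP⟩ := hx'
  set R := P %ₘ G with hR
  have hxR : x = Polynomial.aeval ϖ R := by
    have h1 : Polynomial.aeval ϖ P = x := hP
    rw [← h1, hR]
    conv_lhs => rw [← Polynomial.modByMonic_add_div P G]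
    rw [map_add, map_mul, hroot, zero_mul, add_zero]
  have hRdeg : R.natDegree < q - 1 := by
    rw [← hdeg]
    refine Polynomial.natDegree_modByMonic_lt P hG ?_
    rintro rfl
    simp only [Polynomial.natDegree_one] at hdeg
    omega
  have hsum : x = ∑ i ∈ Finset.range (q - 1), ((R.coeff i : KI A) : Qb) * ϖ ^ i := by
    rw [hxR, Polynomial.aeval_eq_sum_range' hRdeg]
    refine Finset.sum_congr rfl fun i _ => ?_
    rw [Algebra.smul_def]
    rfl
  -- terms
  let f : Option ℕ → Qb := fun o => o.elim (-x) fun i => ((R.coeff i : KI A) : Qb) * ϖ ^ i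
  let s : Finset (Option ℕ) := insert none ((Finset.range (q - 1)).map Function.Embedding.some)
  have hs0 : ∑ o ∈ s, f o = 0 := by
    rw [Finset.sum_insert (by simp), Finset.sum_map]
    change -x + ∑ i ∈ Finset.range (q - 1), ((R.coeff i : KI A) : Qb) * ϖ ^ i = 0
    rw [← hsum, neg_add_cancel]
  have hterm : ∀ i, f (some i) ≠ 0 → ∃ n : ℤ, A.valuation (f (some i)) =
      A.valuation ϖ ^ (((q - 1 : ℕ) : ℤ) * n + i) := by
    intro i hi
    have h1 : ((R.coeff i : KI A) : Qb) ≠ 0 := left_ne_zero_of_mul hi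
    obtain ⟨n, hn⟩ := exists_zpow A hq hA (R.coeff i).2 h1
    refine ⟨n, ?_⟩
    change A.valuation (((R.coeff i : KI A) : Qb) * ϖ ^ i) = _
    rw [map_mul, map_pow, hn, ← hϖ, zpow_add₀ hc0, zpow_mul, zpow_natCast, zpow_natCast]
  obtain ⟨o₁, h1, o₂, h2, hne, hf1, hv⟩ := exists_eq_val_of_sum_eq_zero (v := A.valuation) hs0
    (Finset.mem_insert_self none _) (show f none ≠ 0 from neg_ne_zero.mpr hx0)
  have hf2 : f o₂ ≠ 0 := by
    rw [← Valuation.ne_zero_iff A.valuation, ← hv]
    exact (Valuation.ne_zero_iff _).mpr hf1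
  have hnone : A.valuation (f none) = A.valuation x := Valuation.map_neg _ _
  have hmem : ∀ i, some i ∈ s → i < q - 1 := by
    intro i hi
    rw [Finset.mem_insert] at hi
    rcases hi with hi | hi
    · exact absurd hi (by simp)
    · rw [Finset.mem_map] at hi
      obtain ⟨j, hj, hji⟩ := hi
      have : j = i := Option.some_injective _ hji
      rw [← this]
      exact Finset.mem_range.mp hj
  rcases o₁ with _ | i <;> rcases o₂ with _ | j
  · exact absurd rfl hne
  · obtain ⟨n, hn⟩ := hterm j hf2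
    exact ⟨_, by rw [← hnone, hv, hn]⟩
  · obtain ⟨n, hn⟩ := hterm i hf1
    exact ⟨_, by rw [← hnone, ← hv, hn]⟩
  · exfalso
    obtain ⟨n, hn⟩ := hterm i hf1
    obtain ⟨k, hk⟩ := hterm j hf2
    rw [hn, hk] at hv
    have hcpos := zero_lt_iff.mpr hc0
    have h3 := (zpow_right_injective₀ hcpos hc1.ne) hv
    have hi := hmem i h1
    have hj := hmem j h2
    have hij : i ≠ j := fun h => hne (by rw [h])
    have h4 : (((q - 1 : ℕ) : ℤ) * n + i) % ((q - 1 : ℕ) : ℤ) =
        (((q - 1 : ℕ) : ℤ) * k + j) % ((q - 1 : ℕ) : ℤ) := by rw [h3]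
    rw [Int.add_comm, Int.add_mul_emod_self_left, Int.add_comm (_ * k), Int.add_mul_emod_self_left,
      Int.emod_eq_of_lt (by omega) (by omega), Int.emod_eq_of_lt (by omega) (by omega)] at h4
    exact hij (by exact_mod_cast h4)

/-- the cyclotomic polynomial shifted -/
theorem exists_poly (hq : q.Prime) {ζ : Qb} (hζ : IsPrimitiveRoot ζ q) :
    ∃ G : Polynomial (KI A), G.Monic ∧ G.natDegree = q - 1 ∧ Polynomial.aeval (1 - ζ) G = 0 := by
  have : Fact q.Prime := ⟨hq⟩
  -- `(-1)^(q-1) Φ_q (1 - X)`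
  refine ⟨Polynomial.C ((-1) ^ (q - 1)) * (Polynomial.cyclotomic q (KI A)).comp
    (1 - Polynomial.X), ?_, ?_, ?_⟩
  · have h1 : (1 - Polynomial.X : Polynomial (KI A)) = -(Polynomial.X - Polynomial.C 1) := by
      rw [map_one]; ring
    rw [Polynomial.Monic, Polynomial.leadingCoeff_mul, Polynomial.leadingCoeff_C,
      Polynomial.leadingCoeff_comp, (Polynomial.cyclotomic.monic q (KI A)).leadingCoeff, one_mul,
      h1, Polynomial.leadingCoeff_neg, (Polynomial.monic_X_sub_C (1 : KI A)).leadingCoeff,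
      Polynomial.natDegree_cyclotomic, Nat.totient_prime hq, ← mul_pow, neg_mul_neg, one_mul,
      one_pow]
    rw [h1, Polynomial.natDegree_neg, Polynomial.natDegree_X_sub_C]
    exact one_ne_zero
  · have h1 : (1 - Polynomial.X : Polynomial (KI A)) = -(Polynomial.X - Polynomial.C 1) := by
      rw [map_one]; ring
    rw [Polynomial.natDegree_C_mul (pow_ne_zero _ (neg_ne_zero.mpr one_ne_zero)),
      Polynomial.natDegree_comp, Polynomial.natDegree_cyclotomic, Nat.totient_prime hq, h1,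
      Polynomial.natDegree_neg, Polynomial.natDegree_X_sub_C, mul_one]
  · rw [map_mul, Polynomial.aeval_comp, map_sub, map_one, Polynomial.aeval_X, sub_sub_cancel]
    have h1 : Polynomial.aeval ζ (Polynomial.cyclotomic q (KI A)) = 0 := by
      rw [Polynomial.aeval_def, Polynomial.eval₂_eq_eval_map, Polynomial.map_cyclotomic]
      exact hζ.isRoot_cyclotomic hq.pos
    rw [h1, mul_zero]

/-- (C4.2) the totally ramified extension of the inertia field by the `q`-th roots of unity. -/
theorem exists_ram (hq : q.Prime) (hA : A.LiesOverPrime q) :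
    ∃ (L' : IntermediateField ℚ Qb) (_ : KI A ≤ L') (_ : IsDiscreteValuationRing (OL A L'))
      (ζ : (OL A L')ˣ), IsPrimitiveRoot (((ζ : OL A L') : L')) q ∧
      Irreducible ((ζ : OL A L') - 1) ∧
      ∃ v : (OL A L')ˣ, ((ζ : OL A L') - 1) ^ (q - 1) = v * ((q : ℕ) : OL A L') := by
  obtain ⟨z, hz⟩ : ∃ z : Qb, IsPrimitiveRoot z q := by
    have : NeZero (q : Qb) := ⟨by exact_mod_cast hq.ne_zero⟩
    exact HasEnoughRootsOfUnity.exists_primitiveRoot Qb q
  have hϖ := Fermat.Agent.Conn.val_zeta (A := A) hq hz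
  have hq1 : 0 < q - 1 := by have := hq.one_lt; omega
  have hc0 : A.valuation (1 - z) ≠ 0 := by
    intro h0
    rw [h0, zero_pow hq1.ne'] at hϖ
    exact val_q_ne_zero hq hϖ.symm
  have hc1 : A.valuation (1 - z) < 1 := by
    by_contra hle
    rw [not_lt] at hle
    have h1 := one_le_pow_of_one_le' hle (q - 1)
    rw [hϖ] at h1
    exact absurd (show A.valuation (q : Qb) < 1 from hA) (not_lt.mpr h1)
  obtain ⟨G, hG, hdeg, hroot⟩ := exists_poly (A := A) hq hz
  set M := adjoin (KI A) {1 - z} with hM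
  set L' : IntermediateField ℚ Qb := M.restrictScalars ℚ with hL'
  have hle : KI A ≤ L' := by
    intro x hx
    exact M.algebraMap_mem ⟨x, hx⟩
  have hzL : (1 - z) ∈ L' := subset_adjoin (KI A) _ (Set.mem_singleton _)
  have hval : ∀ x ∈ L', x ≠ 0 → ∃ s : ℤ, A.valuation x = A.valuation (1 - z) ^ s :=
    fun x hx hx0 => exists_zpow_adjoin hq hA hϖ hG hdeg hroot hx hx0
  have hzL' : z ∈ L' := by
    have := L'.sub_mem L'.one_mem hzL
    rwa [sub_sub_cancel] at this
  have hvz : A.valuation z = 1 := by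
    have h1 := congrArg A.valuation hz.pow_eq_one
    rw [map_pow, map_one] at h1
    exact (pow_eq_one_iff_of_ne_zero' hq.ne_zero).mp h1
  let ζ₀ : OL A L' := ⟨⟨z, hzL'⟩, mem_OL.mpr hvz.le⟩
  obtain ⟨ζ, hζ⟩ : IsUnit ζ₀ := isUnit_iff.mpr hvz
  have hpi : ((((ζ : OL A L') - 1 : OL A L') : L') : Qb) = z - 1 := by
    rw [hζ]
    rfl
  have hvpi : A.valuation ((((ζ : OL A L') - 1 : OL A L') : L') : Qb) = A.valuation (1 - z) := by
    rw [hpi, Valuation.map_sub_swap]
  have hdvr : IsDiscreteValuationRing (OL A L') := by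
    refine dvr_of_val (π := (ζ : OL A L') - 1) ?_ ?_ ?_
    · rw [hvpi]; exact hc0
    · rw [hvpi]; exact hc1
    · rw [hvpi]; exact hval
  refine ⟨L', hle, hdvr, ζ, ?_, ?_, ?_⟩
  · rw [hζ]
    have h1 : IsPrimitiveRoot (algebraMap L' Qb (⟨z, hzL'⟩ : L')) q := hz
    exact h1.of_map_of_injective (algebraMap L' Qb).injective
  · refine irreducible_of_val ?_ ?_ ?_
    · rw [hvpi]; exact hc0
    · rw [hvpi]; exact hc1
    · rw [hvpi]; exact hval
  · have hq0 : (q : Qb) ≠ 0 := by exact_mod_cast hq.ne_zero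
    have hwv : A.valuation ((z - 1) ^ (q - 1) / (q : Qb)) = 1 := by
      rw [map_div₀, map_pow, Valuation.map_sub_swap, hϖ, div_self (val_q_ne_zero hq)]
    have hqL : (q : Qb) ∈ L' := by exact_mod_cast _root_.natCast_mem L' q
    have hzL1 : z - 1 ∈ L' := by
      have := L'.neg_mem hzL
      rwa [neg_sub] at this
    let w : OL A L' := ⟨⟨(z - 1) ^ (q - 1) / (q : Qb), _root_.div_mem (_root_.pow_mem hzL1 _) hqL⟩,
      mem_OL.mpr hwv.le⟩
    obtain ⟨v, hv⟩ : IsUnit w := isUnit_iff.mpr hwv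
    refine ⟨v, ?_⟩
    rw [hv]
    apply Subtype.ext
    apply Subtype.ext
    have h2 : (((w * ((q : ℕ) : OL A L') : OL A L') : L') : Qb) =
        ((z - 1) ^ (q - 1) / (q : Qb)) * (q : Qb) := by
      rw [← coe_natCast (A := A) (L := L') q]
      rfl
    rw [h2, div_mul_cancel₀ _ hq0, ← hpi]
    rfl

/-- the inclusion of the valuation rings -/
def incO (A : ValuationSubring Qb) {L L' : IntermediateField ℚ Qb} (hle : L ≤ L') :
    OL A L →+* OL A L' where
  toFun x := ⟨⟨((x : L) : Qb), hle (x : L).2⟩, x.2⟩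
  map_one' := rfl
  map_mul' _ _ := rfl
  map_zero' := rfl
  map_add' _ _ := rfl

theorem coe_incO {L L' : IntermediateField ℚ Qb} (hle : L ≤ L') (x : OL A L) :
    ((incO A hle x : L') : Qb) = ((x : L) : Qb) := rfl

theorem algebraMap_incO {L L' : IntermediateField ℚ Qb} (hle : L ≤ L') (x : OL A L) :
    algebraMap (OL A L') L' (incO A hle x) =
      IntermediateField.inclusion hle (algebraMap (OL A L) L x) := rfl

theorem incO_injective {L L' : IntermediateField ℚ Qb} (hle : L ≤ L') :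
    Function.Injective (incO A hle) := by
  intro x y h
  apply Subtype.ext
  apply Subtype.ext
  exact congrArg (fun w : OL A L' => ((w : L') : Qb)) h

instance isLocalHom_incO {L L' : IntermediateField ℚ Qb} (hle : L ≤ L') :
    IsLocalHom (incO A hle) where
  map_nonunit x hx := by
    rw [isUnit_iff] at hx ⊢
    exact hx

/-! ### Roots of units -/

/-- (C4.3) units of the inertia field are `m`-th powers, for `m` prime to `q` -/
theorem unit_root (hq : q.Prime) (hA : A.LiesOverPrime q) {m : ℕ} (hm : 0 < m) (hqm : ¬ q ∣ m)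
    {u : OL A (KI A)} (hu : IsUnit u) : ∃ v : OL A (KI A), v ^ m = u := by
  obtain ⟨v, hv⟩ := IsAlgClosed.exists_pow_nat_eq (((u : KI A) : Qb)) hm
  have hvu : A.valuation (((u : KI A) : Qb)) = 1 := isUnit_iff.mp hu
  have hvv : A.valuation v = 1 := by
    have h1 := congrArg A.valuation hv
    rw [map_pow, hvu] at h1
    exact (pow_eq_one_iff_of_ne_zero' hm.ne').mp h1
  have hv0 : v ≠ 0 := by
    rintro rfl
    rw [map_zero] at hvv
    exact zero_ne_one hvv
  have hvK : v ∈ KI A := by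
    rw [mem_KI]
    intro σ hσ
    have h1 : (σ v / v) ^ m = 1 := by
      have h2 : σ (((u : KI A) : Qb)) = ((u : KI A) : Qb) := mem_KI.mp (u : KI A).2 σ hσ
      rw [div_pow, ← map_pow, hv, h2, div_self]
      rw [← hv]
      exact pow_ne_zero _ hv0
    have h3 : A.valuation (σ v / v - 1) < 1 := by
      have h4 : σ v / v - 1 = (σ v - v) / v := by field_simp
      rw [h4, map_div₀, hvv, div_one]
      exact inertia_residue hσ hvv.le
    have h5 := root_eq_of_congr hq hA hqm h1 (one_pow m) h3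
    rwa [div_eq_one_iff_eq hv0] at h5
  refine ⟨⟨⟨v, hvK⟩, mem_OL.mpr hvv.le⟩, ?_⟩
  apply Subtype.ext
  apply Subtype.ext
  exact hv

/-- (C4.3) the inertia field contains the `m`-th roots of unity -/
theorem exists_root (hq : q.Prime) (hA : A.LiesOverPrime q) {m : ℕ} (hm : 0 < m) (hqm : ¬ q ∣ m) :
    ∃ ζ : OL A (KI A), IsPrimitiveRoot ζ m := by
  obtain ⟨z, hz⟩ : ∃ z : Qb, IsPrimitiveRoot z m := by
    have : NeZero (m : Qb) := ⟨by exact_mod_cast hm.ne'⟩
    exact HasEnoughRootsOfUnity.exists_primitiveRoot Qb m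
  have hzK := root_mem_KI hq hA hqm hz.pow_eq_one
  have hvz : A.valuation z = 1 := by
    have h1 := congrArg A.valuation hz.pow_eq_one
    rw [map_pow, map_one] at h1
    exact (pow_eq_one_iff_of_ne_zero' hm.ne').mp h1
  refine ⟨⟨⟨z, hzK⟩, mem_OL.mpr hvz.le⟩, ?_⟩
  let φ : OL A (KI A) →+* Qb := (algebraMap (KI A) Qb).comp (algebraMap (OL A (KI A)) (KI A))
  have hφ : Function.Injective φ := by
    intro x y h
    exact Subtype.ext (Subtype.ext h)
  have h1 : IsPrimitiveRoot (φ ⟨⟨z, hzK⟩, mem_OL.mpr hvz.le⟩) m := hz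
  exact h1.of_map_of_injective hφ

/-- (C4.3) integers prime to `q` are units -/
theorem isUnit_natCast_KI (hq : q.Prime) (hA : A.LiesOverPrime q) {m : ℕ} (hqm : ¬ q ∣ m) :
    IsUnit ((m : ℕ) : OL A (KI A)) :=
  have := dvr_KI hq hA
  (ar_KI hq hA).isUnit_natCast hqm

end Fermat.Agent.CD
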