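import Mathlib
import Fermat.Agent.CD.Dvr
import Fermat.Agent.LG.ArStar

/-!
# Descent of series with character to the inertia field
-/

set_option autoImplicit false
set_option linter.unusedSectionVars false

open ModularCurve Fermat.Agent.ModFun Fermat.Agent.ESCore IntermediateField Fermat.Agent.LG
open Fermat.Agent.Geo IsLocalRing UpperHalfPlane
open CongruenceSubgroup (Gamma0)
open scoped MatrixGroups

noncomputable section

namespace Fermat.Agent.CD

section

variable {L : Type*} [Field L] {ι : L →+* ℂ} {N : ℕ} [NeZero N] {χ : Gamma0 N →* ℂˣ}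

theorem xSer_zero : XSer ι N χ (0 : LaurentSeries L) :=
  ⟨0, zero_mem _, fun γ τ => by simp, hasExp_zero⟩

theorem xSer_add {y z : LaurentSeries L} (hy : XSer ι N χ y) (hz : XSer ι N χ z) :
    XSer ι N χ (y + z) := by
  obtain ⟨f, hf, hf', hfy⟩ := hy
  obtain ⟨g, hg, hg', hgz⟩ := hz
  refine ⟨f + g, add_mem hf hg, fun γ τ => ?_, hfy.add hgz⟩
  rw [Pi.add_apply, hf', hg', Pi.add_apply]
  ring

theorem xSer_sum {ι' : Type*} (t : Finset ι') {y : ι' → LaurentSeries L}
    (hy : ∀ i ∈ t, XSer ι N χ (y i)) : XSer ι N χ (∑ i ∈ t, y i) := by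
  classical
  induction t using Finset.induction_on with
  | empty => rw [Finset.sum_empty]; exact xSer_zero
  | insert a t ha ih =>
    rw [Finset.sum_insert ha]
    exact xSer_add (hy a (Finset.mem_insert_self _ _))
      (ih fun i hi => hy i (Finset.mem_insert_of_mem hi))

theorem xSer_C (c : L) : XSer ι N (1 : Gamma0 N →* ℂˣ) (HahnSeries.C c : LaurentSeries L) := by
  refine ⟨fun _ => ι c, ⟨mdifferentiable_const, 0, fun γ => ?_⟩, fun γ τ => ?_, HasExp.const c⟩
  · have h : ((ModularForm.discriminant : ℍ → ℂ) ^ 0 * fun _ : ℍ => ι c) = fun _ => ι c := by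
      ext τ
      simp
    rw [h]
    exact Filter.const_boundedAtFilter atImInfty (ι c)
  · simp

theorem xSer_C_mul (c : L) {y : LaurentSeries L} (hy : XSer ι N χ y) :
    XSer ι N χ (HahnSeries.C c * y) := by
  have h1 := (xSer_C (ι := ι) (N := N) c).mul hy
  rwa [char_one_mul] at h1

end

theorem finCoef_C_mul {c : Qb} {z : LaurentSeries Qb} (hz : FinCoef z) :
    FinCoef (HahnSeries.C c * z) := by
  classical
  obtain ⟨S, hS⟩ := hz
  refine ⟨insert c S, fun n => ?_⟩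
  have h1 : (HahnSeries.C c * z).coeff n = c * z.coeff n := by
    rw [HahnSeries.C_mul_eq_smul, HahnSeries.coeff_smul, smul_eq_mul]
  rw [h1]
  refine mul_mem (subset_adjoin ℚ _ (by simp)) ?_
  exact adjoin.mono ℚ _ _ (by rw [Finset.coe_insert]; exact Set.subset_insert _ _) (hS n)

/-- two automorphisms which agree on generators of the field of coefficients agree on the
series -/
theorem coeffMap_congr {S : Finset Qb} {z : LaurentSeries Qb}
    (hS : ∀ n, z.coeff n ∈ adjoin ℚ (S : Set Qb)) {σ τ : GQ} (h : ∀ x ∈ S, σ x = τ x) :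
    coeffMap (σ.toRingEquiv.toRingHom : Qb →+* Qb) z =
      coeffMap (τ.toRingEquiv.toRingHom : Qb →+* Qb) z := by
  have key : ∀ x ∈ adjoin ℚ (S : Set Qb), σ x = τ x := by
    intro x hx
    have h1 : adjoin ℚ (S : Set Qb) ≤
        IntermediateField.fixedField (Subgroup.zpowers (τ⁻¹ * σ)) := by
      rw [adjoin_le_iff]
      intro y hy
      rw [SetLike.mem_coe, mem_fixedField_iff]
      have h2 : (τ⁻¹ * σ) y = y := by
        rw [AlgEquiv.mul_apply, h y hy, ← AlgEquiv.mul_apply, inv_mul_cancel, AlgEquiv.one_apply]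
      intro g hg
      have h3 : Subgroup.zpowers (τ⁻¹ * σ) ≤ MulAction.stabilizer GQ y := by
        rw [Subgroup.zpowers_le]
        exact h2
      exact h3 hg
    have h2 := (mem_fixedField_iff _ _).mp (h1 hx) _ (Subgroup.mem_zpowers _)
    have h3 : (τ⁻¹ * σ) x = τ⁻¹ (σ x) := rfl
    rw [h3] at h2
    have h4 := congrArg τ h2
    rwa [← AlgEquiv.mul_apply, mul_inv_cancel, AlgEquiv.one_apply] at h4
  ext n
  rw [coeffMap_coeff, coeffMap_coeff]
  exact key _ (hS n)

variable {A : ValuationSubring Qb} {q : ℕ}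

/-- (C4.4) classes fixed by the inertia group are represented by series over the inertia field. -/
theorem exists_xSer_KI {N m : ℕ} [NeZero N] (hm : 0 < m) (χ : XG N m)
    (hχ : ∀ σ ∈ A.inertiaSubgroupIn ℚ, galX N hm σ χ = χ) :
    ∃ y : LaurentSeries (KI A), y ≠ 0 ∧ XSer (ιL (KI A)) N χ.1 y := by
  classical
  obtain ⟨y₀, hy₀, hx₀⟩ := exists_xSer hm χ
  obtain ⟨n, hn⟩ : ∃ n, y₀.coeff n ≠ 0 := by
    by_contra hcon
    push Not at hcon
    apply hy₀
    ext n
    exact hcon n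
  set y := HahnSeries.C (y₀.coeff n)⁻¹ * y₀ with hy
  have hx : XSer ιC N χ.1 y := xSer_C_mul _ hx₀
  have hyn : y.coeff n = 1 := by
    rw [hy, HahnSeries.C_mul_eq_smul, HahnSeries.coeff_smul, smul_eq_mul, inv_mul_cancel₀ hn]
  obtain ⟨S, hS⟩ : FinCoef y := finCoef_C_mul (hx₀.finCoef hm χ.2.1)
  obtain ⟨T, hST, hT⟩ := exists_stable S
  -- the orbit
  let I := A.inertiaSubgroupIn ℚ
  let Ψ : I → LaurentSeries Qb := fun σ =>
    coeffMap ((σ : GQ).toRingEquiv.toRingHom : Qb →+* Qb) y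
  let Φ : I → (S → T) := fun σ s => ⟨(σ : GQ) s, hT _ _ (hST s.2)⟩
  have hΨ : ∀ σ τ : I, Φ σ = Φ τ → Ψ σ = Ψ τ := by
    intro σ τ h
    refine coeffMap_congr hS fun x hx => ?_
    have h1 := congrFun h ⟨x, hx⟩
    exact congrArg Subtype.val h1
  have hfin : (Set.range Ψ).Finite := by
    have h1 : Set.range Ψ ⊆ Set.range (fun f : S → T => Ψ (Function.invFun Φ f)) := by
      rintro _ ⟨σ, rfl⟩
      exact ⟨Φ σ, hΨ _ _ (Function.invFun_eq ⟨σ, rfl⟩)⟩
    exact (Set.finite_range _).subset h1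
  set O := hfin.toFinset with hO
  have hmemO : ∀ w, w ∈ O ↔ ∃ σ : I, Ψ σ = w := by
    intro w
    rw [hO, Set.Finite.mem_toFinset, Set.mem_range]
  set z := ∑ w ∈ O, w with hz
  have hΨmul : ∀ σ τ : I, coeffMap ((σ : GQ).toRingEquiv.toRingHom : Qb →+* Qb) (Ψ τ) =
      Ψ (σ * τ) := by
    intro σ τ
    ext k
    rfl
  have hzσ : ∀ σ : I, coeffMap ((σ : GQ).toRingEquiv.toRingHom : Qb →+* Qb) z = z := by
    intro σ
    rw [hz, map_sum]
    refine Finset.sum_bij' (fun w _ => coeffMap ((σ : GQ).toRingEquiv.toRingHom : Qb →+* Qb) w)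
      (fun w _ => coeffMap ((σ⁻¹ : I) : GQ).toRingEquiv.toRingHom w) ?_ ?_ ?_ ?_ ?_
    · intro w hw
      obtain ⟨τ, rfl⟩ := (hmemO w).mp hw
      rw [hΨmul]
      exact (hmemO _).mpr ⟨_, rfl⟩
    · intro w hw
      obtain ⟨τ, rfl⟩ := (hmemO w).mp hw
      rw [hΨmul]
      exact (hmemO _).mpr ⟨_, rfl⟩
    · intro w hw
      obtain ⟨τ, rfl⟩ := (hmemO w).mp hw
      rw [hΨmul, hΨmul, inv_mul_cancel_left]
    · intro w hw
      obtain ⟨τ, rfl⟩ := (hmemO w).mp hw
      rw [hΨmul, hΨmul, mul_inv_cancel_left]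
    · intro w _
      rfl
  have hzx : XSer ιC N χ.1 z := by
    refine xSer_sum O fun w hw => ?_
    obtain ⟨σ, rfl⟩ := (hmemO w).mp hw
    have h1 := xSer_galX hm (σ : GQ) χ hx
    rwa [hχ σ σ.2] at h1
  have hzn : z.coeff n = (O.card : Qb) := by
    rw [hz, HahnSeries.coeff_sum]
    rw [Finset.sum_congr rfl (g := fun _ => (1 : Qb)), Finset.sum_const, nsmul_eq_mul, mul_one]
    intro w hw
    obtain ⟨σ, rfl⟩ := (hmemO w).mp hw
    change (σ : GQ) (y.coeff n) = 1
    rw [hyn, map_one]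
  have hOne : O.card ≠ 0 := by
    rw [Finset.card_ne_zero]
    exact ⟨Ψ 1, (hmemO _).mpr ⟨1, rfl⟩⟩
  have hzK : ∀ k, z.coeff k ∈ KI A := by
    intro k
    rw [mem_KI]
    intro σ hσ
    have h1 := congrArg (fun w : LaurentSeries Qb => w.coeff k) (hzσ ⟨σ, hσ⟩)
    exact h1
  obtain ⟨y', hy'1, hy'2⟩ := hzx.descend hzK
  refine ⟨y', ?_, hy'2⟩
  rintro rfl
  rw [map_zero] at hy'1
  rw [← hy'1] at hzn
  simp only [HahnSeries.coeff_zero] at hzn
  exact hOne (by exact_mod_cast hzn.symm)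

end Fermat.Agent.CD
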