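import Mathlib

/-!
# Embedding fields of cardinality at most the continuum in the complex numbers
-/

set_option autoImplicit false

open Cardinal

noncomputable section

namespace Fermat.Agent.CD

/-- an algebraically closed extension of cardinality at most the continuum of a countable field
embeds in `ℂ`, over any embedding of the small field -/
theorem exists_embC {K Ω : Type} [Field K] [Field Ω] [Countable K] [IsAlgClosed Ω]
    (hΩ : #Ω ≤ Cardinal.continuum) (ψ : K →+* Ω) (i : K →+* ℂ) :
    ∃ ι : Ω →+* ℂ, ι.comp ψ = i := by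
  let : Algebra K Ω := ψ.toAlgebra
  let : Algebra K ℂ := i.toAlgebra
  obtain ⟨s, hs⟩ := exists_isTranscendenceBasis K Ω
  obtain ⟨t, ht⟩ := exists_isTranscendenceBasis K ℂ
  have hKc : #K ≤ ℵ₀ := Cardinal.mk_le_aleph0_iff.mpr inferInstance
  have hC : #ℂ = Cardinal.continuum := Cardinal.mk_complex
  have ht' : #ℂ = #t := IsAlgClosed.cardinal_eq_cardinal_transcendence_basis_of_aleph0_lt' _ ht hKc
    (by rw [hC]; exact Cardinal.aleph0_lt_continuum)
  have hst : #s ≤ #t := by
    rw [← ht', hC]
    exact (Cardinal.mk_set_le s).trans hΩ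
  obtain ⟨e⟩ := Cardinal.le_def _ _ |>.mp hst
  let x : s → ℂ := fun a => ((e a : t) : ℂ)
  have hx : AlgebraicIndependent K x := ht.1.comp e e.injective
  let f : Algebra.adjoin K (Set.range ((↑) : s → Ω)) →ₐ[K] ℂ :=
    (MvPolynomial.aeval x).comp (hs.1.aevalEquiv.symm : _ →ₐ[K] MvPolynomial s K)
  have hf : Function.Injective f := by
    have h1 : Function.Injective (MvPolynomial.aeval x : MvPolynomial s K →ₐ[K] ℂ) := hx
    exact h1.comp hs.1.aevalEquiv.symm.injective
  let : Algebra (Algebra.adjoin K (Set.range ((↑) : s → Ω))) ℂ := f.toRingHom.toAlgebra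
  have : Algebra.IsAlgebraic (Algebra.adjoin K (Set.range ((↑) : s → Ω))) Ω := hs.isAlgebraic
  have : FaithfulSMul (Algebra.adjoin K (Set.range ((↑) : s → Ω))) ℂ :=
    (faithfulSMul_iff_algebraMap_injective _ _).mpr hf
  let g : Ω →ₐ[Algebra.adjoin K (Set.range ((↑) : s → Ω))] ℂ := IsAlgClosed.lift
  refine ⟨g.toRingHom, RingHom.ext fun a => ?_⟩
  have h2 : ψ a = algebraMap (Algebra.adjoin K (Set.range ((↑) : s → Ω))) Ω (algebraMap K _ a) := rfl
  rw [RingHom.comp_apply, h2]
  change g _ = _
  rw [g.commutes]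
  change f _ = _
  rw [f.commutes]
  rfl

end Fermat.Agent.CD
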