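import Mathlib
import Fermat.Agent.CD.Dvr
import Fermat.Agent.CD.EmbC
import Fermat.Agent.Flat.Conc3

/-!
# Extending a place of the algebraic numbers to the completion of the inertia field
-/

set_option autoImplicit false

open IntermediateField IsLocalRing Fermat.Agent.LG Fermat.Agent.GaloisBasics Fermat.Agent.EC
open Cardinal

noncomputable section

namespace Fermat.Agent.CD

local notation "Qb" => AlgebraicClosure ℚ
local notation "GQ" => (AlgebraicClosure ℚ ≃ₐ[ℚ] AlgebraicClosure ℚ)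

/-- a valuation ring dominating a local ring -/
theorem exists_dominating {O Ω : Type*} [CommRing O] [IsLocalRing O] [Field Ω] (j : O →+* Ω) :
    ∃ B : ValuationSubring Ω, (∀ x, j x ∈ B) ∧ ∀ x, ¬ IsUnit x → B.valuation (j x) < 1 := by
  obtain ⟨B, hB, hloc⟩ := (LocalSubring.range j).exists_le_valuationSubring
  have h1 : ∀ x, j x ∈ B := fun x => hB ⟨x, rfl⟩
  refine ⟨B, h1, fun x hx => ?_⟩
  have h2 : ¬ IsUnit (⟨j x, h1 x⟩ : B) := by
    intro hu
    have h3 : IsUnit (⟨j x, ⟨x, rfl⟩⟩ : (LocalSubring.range j).toSubring) :=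
      hloc.map_nonunit _ hu
    obtain ⟨u, hu⟩ := h3
    obtain ⟨y, hy⟩ := ((u⁻¹ : ((LocalSubring.range j).toSubring)ˣ) :
      (LocalSubring.range j).toSubring).2
    have h4 : (u : (LocalSubring.range j).toSubring) * ((u⁻¹ :
      ((LocalSubring.range j).toSubring)ˣ) : (LocalSubring.range j).toSubring) = 1 := u.mul_inv
    have h5 := congrArg Subtype.val h4
    have h6 : j x * j y = 1 := by
      rw [hy]
      rw [hu] at h5
      exact h5
    have h7 : IsUnit (x * y - 1) := by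
      by_contra hcon
      have h8 : x * y ∈ maximalIdeal O := Ideal.mul_mem_right _ _ ((mem_maximalIdeal _).mpr hx)
      have h9 : (1 : O) ∈ maximalIdeal O := by
        have := Ideal.sub_mem _ h8 ((mem_maximalIdeal _).mpr hcon)
        rwa [sub_sub_cancel] at this
      exact (Ideal.ne_top_iff_one _).mp (maximalIdeal.isMaximal O).ne_top h9
    have h10 := h7.map j
    rw [map_sub, map_mul, h6, map_one, sub_self] at h10
    exact not_isUnit_zero h10
  rw [← ValuationSubring.valuation_lt_one_iff B ⟨j x, h1 x⟩]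
  exact (mem_maximalIdeal _).mpr h2

variable {A : ValuationSubring Qb} {q : ℕ}

/-- elements of the valuation ring are integral over the valuation ring of the inertia field -/
theorem exists_monic {a : Qb} (ha : a ∈ A) :
    ∃ P : Polynomial (OL A (KI A)), P.Monic ∧
      P.eval₂ ((algebraMap (KI A) Qb).comp (OL A (KI A)).subtype) a = 0 := by
  classical
  obtain ⟨T, hST, hT⟩ := exists_stable {a}
  set T' := T.filter (fun x => ∃ σ ∈ A.inertiaSubgroupIn ℚ, x = σ a) with hT'
  have hmem : ∀ x, x ∈ T' ↔ ∃ σ ∈ A.inertiaSubgroupIn ℚ, x = σ a := by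
    intro x
    rw [hT', Finset.mem_filter]
    refine ⟨fun h => h.2, fun h => ⟨?_, h⟩⟩
    obtain ⟨σ, -, rfl⟩ := h
    exact hT σ a (hST (Finset.mem_singleton_self a))
  have hA' : ∀ x ∈ T', x ∈ A := by
    intro x hx
    obtain ⟨σ, hσ, rfl⟩ := (hmem x).mp hx
    exact Fermat.Agent.Flat.decomp_mem (Fermat.Agent.Flat.inertia_le_decomp hσ) ha
  set P : Polynomial Qb := ∏ x ∈ T', (Polynomial.X - Polynomial.C x) with hP
  have hmon : P.Monic := Polynomial.monic_prod_of_monic _ _ fun x _ => Polynomial.monic_X_sub_C x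
  have hfix : ∀ σ ∈ A.inertiaSubgroupIn ℚ,
      P.map (σ.toRingEquiv.toRingHom : Qb →+* Qb) = P := by
    intro σ hσ
    rw [hP, Polynomial.map_prod]
    have h1 : T'.image σ = T' := by
      apply Finset.eq_of_subset_of_card_le
      · intro x hx
        obtain ⟨y, hy, rfl⟩ := Finset.mem_image.mp hx
        obtain ⟨τ, hτ, rfl⟩ := (hmem y).mp hy
        exact (hmem _).mpr ⟨σ * τ, mul_mem hσ hτ, rfl⟩
      · rw [Finset.card_image_of_injective _ σ.injective]
    conv_rhs => rw [← h1]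
    rw [Finset.prod_image σ.injective.injOn]
    refine Finset.prod_congr rfl fun x _ => ?_
    rw [Polynomial.map_sub, Polynomial.map_X, Polynomial.map_C]
    rfl
  have hco : ∀ n, P.coeff n ∈ A := by
    have h1 : P = (∏ x ∈ T'.attach, (Polynomial.X - Polynomial.C (⟨x, hA' x x.2⟩ : A))).map
        A.subtype := by
      rw [Polynomial.map_prod, hP, ← Finset.prod_attach]
      refine Finset.prod_congr rfl fun x _ => ?_
      rw [Polynomial.map_sub, Polynomial.map_X, Polynomial.map_C]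
      rfl
    intro n
    rw [h1, Polynomial.coeff_map]
    exact Subtype.property _
  have hcK : ∀ n, P.coeff n ∈ KI A := by
    intro n
    rw [mem_KI]
    intro σ hσ
    have h1 := congrArg (fun Q => Polynomial.coeff Q n) (hfix σ hσ)
    simp only [Polynomial.coeff_map] at h1
    exact h1
  have hlift : P ∈ Polynomial.lifts ((algebraMap (KI A) Qb).comp (OL A (KI A)).subtype) := by
    rw [Polynomial.lifts_iff_coeff_lifts]
    intro n
    exact ⟨⟨⟨P.coeff n, hcK n⟩, hco n⟩, rfl⟩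
  obtain ⟨R, hR, -, hRm⟩ := Polynomial.lifts_and_natDegree_eq_and_monic hlift hmon
  refine ⟨R, hRm, ?_⟩
  rw [← Polynomial.eval_map, hR, hP, Polynomial.eval_prod]
  refine Finset.prod_eq_zero (i := a) ((hmem a).mpr ⟨1, one_mem _, rfl⟩) ?_
  rw [Polynomial.eval_sub, Polynomial.eval_X, Polynomial.eval_C, sub_self]

section

variable {O : Type*} [CommRing O] {Ω : Type*} [Field Ω]

/-- extension of an embedding of the valuation ring of the inertia field to the algebraic
numbers -/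
theorem exists_psi [IsAlgClosed Ω] (j : O →+* Ω) (inc : OL A (KI A) →+* O)
    (hj : Function.Injective (j.comp inc)) :
    ∃ ψ : Qb →+* Ω, ∀ a : OL A (KI A), j (inc a) = ψ ((a : KI A) : Qb) := by
  let ψ₀ : KI A →+* Ω := IsFractionRing.lift (A := OL A (KI A)) (K := KI A) hj
  let : Algebra (KI A) Ω := ψ₀.toAlgebra
  have : Algebra.IsAlgebraic (KI A) Qb := inferInstance
  let ψ : Qb →ₐ[KI A] Ω := IsAlgClosed.lift
  refine ⟨ψ.toRingHom, fun a => ?_⟩
  have h1 : ψ (algebraMap (KI A) Qb (a : KI A)) = algebraMap (KI A) Ω (a : KI A) := ψ.commutes _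
  change _ = ψ (algebraMap (KI A) Qb (a : KI A))
  rw [h1]
  exact (IsFractionRing.lift_algebraMap hj a).symm

variable {j : O →+* Ω} {inc : OL A (KI A) →+* O} {ψ : Qb →+* Ω}
  {B : ValuationSubring Ω}

theorem psi_mem (hψ : ∀ a : OL A (KI A), j (inc a) = ψ ((a : KI A) : Qb)) (hjB : ∀ x, j x ∈ B)
    {a : Qb} (ha : a ∈ A) : ψ a ∈ B := by
  obtain ⟨P, hP, h0⟩ := exists_monic ha
  have h1 : ∀ x : OL A (KI A), ψ ((x : KI A) : Qb) ∈ B := fun x => by
    rw [← hψ]
    exact hjB _
  let f : OL A (KI A) →+* B :=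
    (ψ.comp ((algebraMap (KI A) Qb).comp (OL A (KI A)).subtype)).codRestrict B h1
  have h2 : (P.map f).eval₂ (algebraMap B Ω) (ψ a) = 0 := by
    have h3 : (algebraMap B Ω).comp f =
        ψ.comp ((algebraMap (KI A) Qb).comp (OL A (KI A)).subtype) := rfl
    rw [Polynomial.eval₂_map, h3, ← Polynomial.hom_eval₂, h0, map_zero]
  have h4 : IsIntegral B (ψ a) := ⟨P.map f, hP.map f, h2⟩
  obtain ⟨b, hb⟩ := IsIntegrallyClosed.isIntegral_iff.mp h4
  rw [← hb]
  exact b.2

theorem psi_le (hψ : ∀ a : OL A (KI A), j (inc a) = ψ ((a : KI A) : Qb)) (hjB : ∀ x, j x ∈ B)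
    {a : Qb} (ha : A.valuation a ≤ 1) : B.valuation (ψ a) ≤ 1 := by
  rw [B.valuation_le_one_iff]
  exact psi_mem hψ hjB ((A.valuation_le_one_iff a).mp ha)

theorem psi_eq (hψ : ∀ a : OL A (KI A), j (inc a) = ψ ((a : KI A) : Qb)) (hjB : ∀ x, j x ∈ B)
    {a : Qb} (ha : A.valuation a = 1) : B.valuation (ψ a) = 1 := by
  refine le_antisymm (psi_le hψ hjB ha.le) ?_
  have h1 : A.valuation a⁻¹ ≤ 1 := by rw [map_inv₀, ha, inv_one]
  have h2 := psi_le hψ hjB h1
  have ha0 : a ≠ 0 := by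
    rintro rfl
    rw [map_zero] at ha
    exact zero_ne_one ha
  rw [map_inv₀, map_inv₀] at h2
  have h3 : B.valuation (ψ a) ≠ 0 := by
    rw [Valuation.ne_zero_iff]
    exact (map_ne_zero ψ).mpr ha0
  exact (inv_le_one₀ (zero_lt_iff.mpr h3)).mp h2

theorem psi_lt (hq : q.Prime) (hA : A.LiesOverPrime q)
    (hψ : ∀ a : OL A (KI A), j (inc a) = ψ ((a : KI A) : Qb)) (hjB : ∀ x, j x ∈ B)
    (hloc : B.valuation (j (inc (q : OL A (KI A)))) < 1)
    {a : Qb} (ha : A.valuation a < 1) : B.valuation (ψ a) < 1 := by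
  have hvq : A.valuation (q : Qb) < 1 := hA
  rcases eq_or_ne a 0 with rfl | ha0
  · rw [map_zero, map_zero]
    exact zero_lt_one
  obtain ⟨t, ht, s, hs⟩ := exists_pow_val (v := A.valuation) hq hvq ha0
  have hq0 : A.valuation (q : Qb) ≠ 0 := val_q_ne_zero hq
  have h1 : A.valuation a ^ t < 1 := pow_lt_one₀ zero_le ha ht.ne'
  have hs0 : 0 < s := by
    by_contra hcon
    push Not at hcon
    have h2 : 1 ≤ A.valuation (q : Qb) ^ s := by
      obtain ⟨n, rfl⟩ : ∃ n : ℕ, s = -n := ⟨s.natAbs, by omega⟩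
      rw [zpow_neg, zpow_natCast]
      rw [one_le_inv₀ (pow_pos (zero_lt_iff.mpr hq0) _)]
      exact pow_le_one₀ zero_le hvq.le
    rw [← hs] at h2
    exact absurd h1 (not_lt.mpr h2)
  obtain ⟨n, rfl⟩ : ∃ n : ℕ, s = n := ⟨s.natAbs, by omega⟩
  have hn : n ≠ 0 := by
    rintro rfl
    simp at hs0
  rw [zpow_natCast] at hs
  have hqn : ((q : ℕ) : Qb) ≠ 0 := by exact_mod_cast hq.ne_zero
  have h3 : A.valuation (a ^ t / (q : Qb) ^ n) = 1 := by
    rw [map_div₀, map_pow, map_pow, hs, div_self (pow_ne_zero _ hq0)]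
  have h4 := psi_eq hψ hjB h3
  have h5 : B.valuation (ψ a) ^ t = B.valuation (ψ (q : Qb)) ^ n := by
    rw [map_div₀, map_pow, map_pow, map_div₀, map_pow, map_pow] at h4
    rwa [div_eq_one_iff_eq] at h4
    refine pow_ne_zero _ ?_
    rw [Valuation.ne_zero_iff]
    exact (map_ne_zero ψ).mpr hqn
  have h6 : B.valuation (ψ (q : Qb)) < 1 := by
    have h7 := hψ (q : OL A (KI A))
    rw [coe_natCast] at h7
    rwa [h7] at hloc
  have h8 : B.valuation (ψ a) ^ t < 1 := by
    rw [h5]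
    exact pow_lt_one₀ zero_le h6 hn
  by_contra hcon
  exact absurd h8 (not_lt.mpr (one_le_pow₀ (not_lt.mp hcon)))

theorem psi_lt_iff (hq : q.Prime) (hA : A.LiesOverPrime q)
    (hψ : ∀ a : OL A (KI A), j (inc a) = ψ ((a : KI A) : Qb)) (hjB : ∀ x, j x ∈ B)
    (hloc : B.valuation (j (inc (q : OL A (KI A)))) < 1)
    {a : Qb} : B.valuation (ψ a) < 1 ↔ A.valuation a < 1 := by
  refine ⟨fun h => ?_, psi_lt hq hA hψ hjB hloc⟩
  by_contra hcon
  rw [not_lt] at hcon
  have ha0 : a ≠ 0 := by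
    rintro rfl
    rw [map_zero] at hcon
    exact absurd hcon (not_le.mpr zero_lt_one)
  have h1 : A.valuation a⁻¹ ≤ 1 := by
    rw [map_inv₀]
    exact inv_le_one_of_one_le₀ hcon
  have h2 := psi_le hψ hjB h1
  rw [map_inv₀, map_inv₀, inv_le_one₀] at h2
  · exact absurd h (not_lt.mpr h2)
  · rw [zero_lt_iff, Valuation.ne_zero_iff]
    exact (map_ne_zero ψ).mpr ha0

theorem psi_le_iff (hq : q.Prime) (hA : A.LiesOverPrime q)
    (hψ : ∀ a : OL A (KI A), j (inc a) = ψ ((a : KI A) : Qb)) (hjB : ∀ x, j x ∈ B)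
    (hloc : B.valuation (j (inc (q : OL A (KI A)))) < 1)
    {a : Qb} : B.valuation (ψ a) ≤ 1 ↔ A.valuation a ≤ 1 := by
  refine ⟨fun h => ?_, psi_le hψ hjB⟩
  by_contra hcon
  rw [not_le] at hcon
  have ha0 : a ≠ 0 := by
    rintro rfl
    rw [map_zero] at hcon
    exact absurd hcon (not_lt.mpr zero_le)
  have h0 : 0 < A.valuation a := zero_lt_one.trans hcon
  have h1 : A.valuation a⁻¹ < 1 := by
    rw [map_inv₀]
    exact inv_lt_one_of_one_lt₀ hcon
  have h2 := psi_lt hq hA hψ hjB hloc h1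
  rw [map_inv₀, map_inv₀, inv_lt_one₀] at h2
  · exact absurd h (not_le.mpr h2)
  · rw [zero_lt_iff, Valuation.ne_zero_iff]
    exact (map_ne_zero ψ).mpr ha0

end

end Fermat.Agent.CD
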