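import Mathlib

/-!
# Completion of a discrete valuation ring
-/

set_option autoImplicit false
set_option linter.unusedSectionVars false

open IsLocalRing

noncomputable section

namespace Fermat.Agent.CD

section

variable (O₀ : Type*) [CommRing O₀] [IsDomain O₀] [IsDiscreteValuationRing O₀]

/-- the completion -/
abbrev Comp : Type _ := AdicCompletion (maximalIdeal O₀) O₀

/-- the inclusion in the completion -/
abbrev inc : O₀ →+* Comp O₀ := algebraMap O₀ (Comp O₀)

variable {O₀}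

/-- the reduction modulo powers of the maximal ideal -/
abbrev ev (O₀ : Type*) [CommRing O₀] [IsDomain O₀] [IsDiscreteValuationRing O₀] (n : ℕ) :
    Comp O₀ →ₐ[O₀] O₀ ⧸ (maximalIdeal O₀) ^ n := AdicCompletion.evalₐ (maximalIdeal O₀) n

theorem ev_inc (n : ℕ) (a : O₀) : ev O₀ n (inc O₀ a) = Ideal.Quotient.mk _ a :=
  (ev O₀ n).commutes a

variable {π : O₀} (hπ : Prime π)

include hπ

theorem maxIdeal_eq : maximalIdeal O₀ = Ideal.span {π} := hπ.irreducible.maximalIdeal_eq

theorem mem_pow_iff {n : ℕ} {a : O₀} : a ∈ (maximalIdeal O₀) ^ n ↔ π ^ n ∣ a := by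
  rw [maxIdeal_eq hπ, Ideal.span_singleton_pow, Ideal.mem_span_singleton]

theorem maxIdeal_comp : maximalIdeal (Comp O₀) = Ideal.span {inc O₀ π} := by
  rw [AdicCompletion.maximalIdeal_eq_map]
  apply le_antisymm
  · rw [Ideal.map_le_iff_le_comap]
    intro x hx
    obtain ⟨c, rfl⟩ := Ideal.mem_span_singleton.mp ((maxIdeal_eq hπ) ▸ hx)
    rw [Ideal.mem_comap, map_mul]
    exact Ideal.mul_mem_right _ _ (Ideal.mem_span_singleton_self _)
  · rw [Ideal.span_singleton_le_iff_mem]
    exact Ideal.mem_map_of_mem _ ((maxIdeal_eq hπ) ▸ Ideal.mem_span_singleton_self π)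

theorem dvd_iff_ev {n : ℕ} {x : Comp O₀} : inc O₀ π ^ n ∣ x ↔ ev O₀ n x = 0 := by
  constructor
  · rintro ⟨y, rfl⟩
    rw [map_mul, ← map_pow, ev_inc]
    have : Ideal.Quotient.mk (maximalIdeal O₀ ^ n) (π ^ n) = 0 := by
      rw [Ideal.Quotient.eq_zero_iff_mem, mem_pow_iff hπ]
    rw [this, zero_mul]
  · intro h
    have h1 : x ∈ (maximalIdeal O₀ ^ n • ⊤ : Submodule O₀ (Comp O₀)) := by
      rw [AdicCompletion.pow_smul_top_eq_ker_eval (maximalIdeal O₀).fg_of_isNoetherianRing,
        LinearMap.mem_ker]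
      have h2 : AdicCompletion.evalₐ (maximalIdeal O₀) n x = 0 := h
      have h3 := AdicCompletion.factor_evalₐ_eq_eval (maximalIdeal O₀) (n := n) x
        (le_of_eq (by rw [smul_eq_mul, Ideal.mul_top]))
      rw [h2, map_zero] at h3
      exact h3.symm
    have h3 : (maximalIdeal O₀ ^ n) = Ideal.span {π ^ n} := by
      rw [maxIdeal_eq hπ, Ideal.span_singleton_pow]
    have h4 : x ∈ (Ideal.span {π ^ n} • ⊤ : Submodule O₀ (Comp O₀)) := by
      rw [← h3]; exact h1
    rw [Submodule.ideal_span_singleton_smul, Submodule.mem_smul_pointwise_iff_exists] at h4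
    obtain ⟨y, -, hy⟩ := h4
    exact ⟨y, by rw [← hy, Algebra.smul_def, map_pow]⟩

/-- density -/
theorem exists_approx (n : ℕ) (x : Comp O₀) : ∃ a, inc O₀ π ^ n ∣ x - inc O₀ a := by
  obtain ⟨a, ha⟩ := Ideal.Quotient.mk_surjective (ev O₀ n x)
  refine ⟨a, ?_⟩
  rw [dvd_iff_ev hπ, map_sub, ev_inc, ha, sub_self]

theorem pow_dvd_inc_iff {n : ℕ} {a : O₀} : inc O₀ π ^ n ∣ inc O₀ a ↔ π ^ n ∣ a := by
  rw [dvd_iff_ev hπ, ev_inc, Ideal.Quotient.eq_zero_iff_mem, mem_pow_iff hπ]

theorem comp_haus {x : Comp O₀} (h : ∀ n, inc O₀ π ^ n ∣ x) : x = 0 := by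
  apply AdicCompletion.ext_evalₐ
  intro n
  rw [map_zero]
  exact (dvd_iff_ev hπ).mp (h n)

/-- the uniformizer is a nonzerodivisor -/
theorem comp_nzd {x : Comp O₀} (hx : inc O₀ π * x = 0) : x = 0 := by
  apply comp_haus hπ
  intro n
  obtain ⟨a, ha⟩ := exists_approx hπ n x
  obtain ⟨y, hy⟩ := ha
  have h1 : inc O₀ π ^ (n + 1) ∣ inc O₀ (π * a) := by
    refine ⟨-y, ?_⟩
    rw [map_mul]
    linear_combination hx - inc O₀ π * hy
  rw [pow_dvd_inc_iff hπ, pow_succ', mul_dvd_mul_iff_left hπ.ne_zero,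
    ← pow_dvd_inc_iff hπ] at h1
  have h2 : x = (x - inc O₀ a) + inc O₀ a := by ring
  rw [h2]
  exact dvd_add ⟨y, hy⟩ h1

theorem inc_injective : Function.Injective (inc O₀) := by
  rw [injective_iff_map_eq_zero]
  intro a ha
  by_contra h0
  obtain ⟨n, u, hu⟩ := IsDiscreteValuationRing.eq_unit_mul_pow_irreducible h0 hπ.irreducible
  have h1 : π ^ (n + 1) ∣ a := by
    rw [← pow_dvd_inc_iff hπ, ha]
    exact dvd_zero _
  rw [hu] at h1
  have h2 : π ^ (n + 1) ∣ π ^ n := (Units.isUnit u).dvd_mul_left.mp h1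
  rw [pow_succ] at h2
  have h3 : π ∣ 1 := by
    have h4 : π ^ n * π ∣ π ^ n * 1 := by rwa [mul_one]
    exact (mul_dvd_mul_iff_left (pow_ne_zero n hπ.ne_zero)).mp h4
  exact hπ.not_isUnit (isUnit_of_dvd_one h3)

theorem exists_unit_mul_pow {x : Comp O₀} (hx : x ≠ 0) :
    ∃ (n : ℕ) (u : (Comp O₀)ˣ), inc O₀ π ^ n * u = x := by
  classical
  have h1 : ∃ n, ¬ inc O₀ π ^ n ∣ x := by
    by_contra hcon
    push Not at hcon
    exact hx (comp_haus hπ hcon)
  obtain ⟨n, hn⟩ : ∃ n, Nat.find h1 = n + 1 := by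
    refine ⟨Nat.find h1 - 1, ?_⟩
    have : Nat.find h1 ≠ 0 := by
      intro h0
      have := Nat.find_spec h1
      rw [h0, pow_zero] at this
      exact this (one_dvd _)
    omega
  have h2 : inc O₀ π ^ n ∣ x := by
    by_contra hcon
    have := Nat.find_min h1 (m := n) (by omega)
    exact this hcon
  obtain ⟨u, rfl⟩ := h2
  have h3 : IsUnit u := by
    by_contra hcon
    have h4 : u ∈ maximalIdeal (Comp O₀) := hcon
    rw [maxIdeal_comp hπ, Ideal.mem_span_singleton] at h4
    obtain ⟨v, rfl⟩ := h4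
    have h5 := Nat.find_spec h1
    rw [hn] at h5
    exact h5 ⟨v, by ring⟩
  obtain ⟨u, rfl⟩ := h3
  exact ⟨n, u, rfl⟩

theorem comp_nzd_pow {n : ℕ} {x : Comp O₀} (hx : inc O₀ π ^ n * x = 0) : x = 0 := by
  induction n with
  | zero => simpa using hx
  | succ n ih =>
    apply ih
    apply comp_nzd hπ
    rw [← hx]
    ring

theorem isDomain_comp : IsDomain (Comp O₀) := by
  have : Nontrivial (Comp O₀) := (inc_injective hπ).nontrivial
  refine @NoZeroDivisors.to_isDomain _ _ _ ⟨fun {x y} hxy => ?_⟩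
  by_contra hcon
  push Not at hcon
  obtain ⟨n, u, rfl⟩ := exists_unit_mul_pow hπ hcon.1
  have h1 : inc O₀ π ^ n * (u * y) = 0 := by rw [← mul_assoc]; exact hxy
  exact hcon.2 ((Units.mul_right_eq_zero u).mp (comp_nzd_pow hπ h1))

theorem irreducible_inc : Irreducible (inc O₀ π) := by
  have := isDomain_comp hπ
  constructor
  · intro h
    have h1 : inc O₀ π ∈ maximalIdeal (Comp O₀) := by
      rw [maxIdeal_comp hπ]
      exact Ideal.mem_span_singleton_self _
    exact h1 h
  · intro a b hab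
    by_contra hcon
    push Not at hcon
    have ha : a ∈ maximalIdeal (Comp O₀) := hcon.1
    have hb : b ∈ maximalIdeal (Comp O₀) := hcon.2
    rw [maxIdeal_comp hπ, Ideal.mem_span_singleton] at ha hb
    obtain ⟨c, rfl⟩ := ha
    obtain ⟨d, rfl⟩ := hb
    have h1 : inc O₀ π * (1 - inc O₀ π * c * d) = 0 := by linear_combination hab
    have h2 := comp_nzd hπ h1
    have h3 : inc O₀ π ∣ 1 := ⟨c * d, by linear_combination h2⟩
    have h4 := isUnit_of_dvd_one h3
    have h5 : inc O₀ π ∈ maximalIdeal (Comp O₀) := by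
      rw [maxIdeal_comp hπ]
      exact Ideal.mem_span_singleton_self _
    exact h5 h4

theorem isDVR_comp : haveI := isDomain_comp hπ; IsDiscreteValuationRing (Comp O₀) := by
  have := isDomain_comp hπ
  apply IsDiscreteValuationRing.ofHasUnitMulPowIrreducibleFactorization
  refine ⟨inc O₀ π, irreducible_inc hπ, fun {x} hx => ?_⟩
  obtain ⟨n, u, h⟩ := exists_unit_mul_pow hπ hx
  exact ⟨n, u, h⟩

theorem isAdicComplete_comp : IsAdicComplete (Ideal.span {inc O₀ π}) (Comp O₀) := by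
  rw [← maxIdeal_comp hπ]
  infer_instance

omit hπ in
theorem card_comp [Countable O₀] : Cardinal.mk (Comp O₀) ≤ Cardinal.continuum := by
  have h1 : Function.Injective (fun (x : Comp O₀) (n : ℕ) => ev O₀ n x) := by
    intro x y h
    apply AdicCompletion.ext_evalₐ
    intro n
    exact congrFun h n
  have h2 : ∀ n : ℕ, ∃ f : (O₀ ⧸ (maximalIdeal O₀) ^ n) → ℕ, Function.Injective f := fun n => by
    have : Countable (O₀ ⧸ (maximalIdeal O₀) ^ n) :=
      Function.Surjective.countable (Ideal.Quotient.mk_surjective (I := (maximalIdeal O₀) ^ n))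
    exact exists_injective_nat _
  choose f hf using h2
  have h3 : Function.Injective (fun (x : Comp O₀) (n : ℕ) => f n (ev O₀ n x)) := by
    intro x y h
    apply h1
    funext n
    exact hf n (congrFun h n)
  have h4 := Cardinal.lift_mk_le_lift_mk_of_injective h3
  rw [Cardinal.lift_id'] at h4
  have h5 : Cardinal.lift.{u_1} (Cardinal.mk (ℕ → ℕ)) = Cardinal.continuum := by
    have : Cardinal.mk (ℕ → ℕ) = Cardinal.continuum := by
      rw [Cardinal.mk_arrow]
      simp
    rw [this, Cardinal.lift_continuum]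
  rw [h5] at h4
  exact h4

end

/-- (C1) completion of a discrete valuation ring -/
theorem exists_completion (O₀ : Type) [CommRing O₀] [IsDomain O₀] [IsDiscreteValuationRing O₀]
    [Countable O₀] {π : O₀} (hπ : Prime π) :
    ∃ (O : Type) (_ : CommRing O) (_ : IsDomain O) (_ : IsDiscreteValuationRing O)
      (inc : O₀ →+* O), Function.Injective inc ∧ IsAdicComplete (Ideal.span {inc π}) O ∧
        Irreducible (inc π) ∧ (∀ (n : ℕ) (x : O), ∃ a, inc π ^ n ∣ x - inc a) ∧
        (∀ (n : ℕ) (a : O₀), inc π ^ n ∣ inc a ↔ π ^ n ∣ a) ∧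
        Cardinal.mk O ≤ Cardinal.continuum :=
  ⟨Comp O₀, inferInstance, isDomain_comp hπ, isDVR_comp hπ, inc O₀, inc_injective hπ,
    isAdicComplete_comp hπ, irreducible_inc hπ, exists_approx hπ, fun _ _ => pow_dvd_inc_iff hπ,
    card_comp⟩

end Fermat.Agent.CD
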