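import Mathlib
import Fermat.Agent.CD.BigPlace
import Fermat.Agent.CD.Compl

/-!
# The big place: completion of the inertia field, and an embedding in the complex numbers
-/

set_option autoImplicit false

open IntermediateField IsLocalRing Fermat.Agent.LG Fermat.Agent.GaloisBasics Fermat.Agent.EC
open Cardinal
open Fermat.Agent.Flat (subA subA_coe residueComp_surjective isAlgClosed_residueA)

noncomputable section

namespace Fermat.Agent.CD

local notation "Qb" => AlgebraicClosure ℚ
local notation "GQ" => (AlgebraicClosure ℚ ≃ₐ[ℚ] AlgebraicClosure ℚ)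

variable {A : ValuationSubring Qb} {q : ℕ}

theorem residue_subA (hq : q.Prime) (hA : A.LiesOverPrime q) (a : OL A (KI A)) :
    residue A (subA a) = 0 ↔ (q : OL A (KI A)) ∣ a := by
  have := dvr_KI hq hA
  rw [residue_eq_zero_iff, ← Ideal.mem_span_singleton,
    ← (irreducible_q hq hA).maximalIdeal_eq, mem_maximalIdeal, mem_maximalIdeal,
    mem_nonunits_iff, mem_nonunits_iff, not_iff_not]
  exact ⟨fun h => isUnit_of_map_unit (subA (A := A) (L := KI A)) a h, fun h => h.map _⟩

section

variable {O : Type*} [CommRing O] {inc : OL A (KI A) →+* O}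

/-- the reduction map of the completion -/
theorem exists_red (hq : q.Prime) (hA : A.LiesOverPrime q)
    (happ : ∀ x : O, ∃ a, inc (q : OL A (KI A)) ∣ x - inc a)
    (hdvd : ∀ a, inc (q : OL A (KI A)) ∣ inc a → (q : OL A (KI A)) ∣ a) :
    ∃ red : O →+* ResidueField A, Function.Surjective red ∧
      (∀ x, red x = 0 ↔ inc (q : OL A (KI A)) ∣ x) ∧
      ∀ a : OL A (KI A), red (inc a) = residue A (subA a) := by
  let I : Ideal O := Ideal.span {inc (q : OL A (KI A))}
  let g : OL A (KI A) →+* O ⧸ I := (Ideal.Quotient.mk I).comp inc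
  let h : OL A (KI A) →+* ResidueField A := (residue A).comp (subA (A := A) (L := KI A))
  have hg : Function.Surjective g := by
    intro y
    obtain ⟨x, rfl⟩ := Ideal.Quotient.mk_surjective y
    obtain ⟨a, ha⟩ := happ x
    refine ⟨a, ?_⟩
    have h1 : Ideal.Quotient.mk I (x - inc a) = 0 :=
      Ideal.Quotient.eq_zero_iff_mem.mpr (Ideal.mem_span_singleton.mpr ha)
    rw [map_sub, sub_eq_zero] at h1
    exact h1.symm
  have hker : RingHom.ker g ≤ RingHom.ker h := by
    intro a ha
    rw [RingHom.mem_ker] at ha ⊢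
    have h1 : inc (q : OL A (KI A)) ∣ inc a :=
      Ideal.mem_span_singleton.mp (Ideal.Quotient.eq_zero_iff_mem.mp ha)
    exact (residue_subA hq hA a).mpr (hdvd a h1)
  let r₀ : O ⧸ I →+* ResidueField A := g.liftOfSurjective hg ⟨h, hker⟩
  have hr₀ : ∀ a, r₀ (g a) = h a := fun a =>
    RingHom.liftOfRightInverse_comp_apply _ _ (Function.rightInverse_surjInv hg) ⟨h, hker⟩ a
  let red : O →+* ResidueField A := r₀.comp (Ideal.Quotient.mk I)
  have hinc : ∀ a : OL A (KI A), red (inc a) = residue A (subA a) := fun a => hr₀ a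
  have hq0 : red (inc (q : OL A (KI A))) = 0 := by
    rw [hinc, residue_subA hq hA]
  refine ⟨red, ?_, ?_, hinc⟩
  · intro y
    obtain ⟨a, ha⟩ := residueComp_surjective hq hA le_rfl y
    exact ⟨inc a, (hinc a).trans ha⟩
  · intro x
    obtain ⟨a, y, hy⟩ := happ x
    have hx : x = inc a + inc (q : OL A (KI A)) * y := by rw [← hy]; ring
    constructor
    · intro h0
      rw [hx, map_add, map_mul, hq0, zero_mul, add_zero, hinc, residue_subA hq hA] at h0
      rw [hx]
      exact dvd_add (map_dvd inc h0) (dvd_mul_right _ _)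
    · rintro ⟨z, rfl⟩
      rw [map_mul, hq0, zero_mul]

end

section

variable {O : Type*} [CommRing O] [IsDomain O] [IsDiscreteValuationRing O]
  {Ω : Type*} [Field Ω] {j : O →+* Ω} {inc : OL A (KI A) →+* O} {ψ : Qb →+* Ω}
  {B : ValuationSubring Ω}

/-- the residue field does not change -/
theorem exists_res (hq : q.Prime) (hA : A.LiesOverPrime q)
    (hj : Function.Injective j)
    (hψ : ∀ a : OL A (KI A), j (inc a) = ψ ((a : KI A) : Qb)) (hjB : ∀ x, j x ∈ B)
    (hirr : Irreducible (inc (q : OL A (KI A))))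
    (hloc : B.valuation (j (inc (q : OL A (KI A)))) < 1)
    (happ : ∀ x : O, ∃ a, inc (q : OL A (KI A)) ∣ x - inc a)
    {red : O →+* ResidueField A} (hred : ∀ x, red x = 0 ↔ inc (q : OL A (KI A)) ∣ x)
    (hri : ∀ a : OL A (KI A), red (inc a) = residue A (subA a))
    (halg : ∀ y : Ω, ∃ f : Polynomial O, f ≠ 0 ∧ f.eval₂ j y = 0) :
    ∃ res : B →+* ResidueField A, Function.Surjective res ∧
      (∀ y : B, res y = 0 ↔ B.valuation (y : Ω) < 1) ∧
      (∀ (a : A) (h : ψ a ∈ B), res ⟨ψ a, h⟩ = residue A a) ∧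
      (∀ x : O, res ⟨j x, hjB x⟩ = red x) ∧
      ∀ y ∈ B, ∃ a : OL A (KI A), B.valuation (y - ψ ((a : KI A) : Qb)) < 1 := by
  have hac : IsAlgClosed (ResidueField A) := isAlgClosed_residueA hq hA
  let ψA : A →+* B := (ψ.comp A.subtype).codRestrict B fun a => psi_mem hψ hjB a.2
  have hψA : IsLocalHom ψA := by
    refine ⟨fun a ha => ?_⟩
    by_contra hcon
    have h1 : A.valuation (a : Qb) < 1 := (ValuationSubring.valuation_lt_one_iff A a).mp
      ((mem_maximalIdeal _).mpr hcon)
    have h2 := psi_lt hq hA hψ hjB hloc h1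
    have h3 : ψA a ∈ maximalIdeal B := (ValuationSubring.valuation_lt_one_iff B (ψA a)).mpr h2
    exact ((mem_maximalIdeal _).mp h3) ha
  let θ : ResidueField A →+* ResidueField B := ResidueField.map ψA
  have hθ : ∀ a : A, θ (residue A a) = residue B (ψA a) := fun a => rfl
  let jB : O →+* B := j.codRestrict B hjB
  have hjq : residue B (jB (inc (q : OL A (KI A)))) = 0 := by
    rw [residue_eq_zero_iff]
    exact (ValuationSubring.valuation_lt_one_iff B _).mpr hloc
  have hθred : ∀ x, θ (red x) = residue B (jB x) := by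
    intro x
    obtain ⟨a, y, hy⟩ := happ x
    have hx : x = inc a + inc (q : OL A (KI A)) * y := by rw [← hy]; ring
    have h1 : red (inc (q : OL A (KI A))) = 0 := (hred _).mpr dvd_rfl
    rw [hx, map_add, map_mul, h1, zero_mul, add_zero, map_add, map_mul, map_add, map_mul, hjq,
      zero_mul, add_zero, hri, hθ]
    congr 1
    apply Subtype.ext
    exact (hψ a).symm
  have hsurj : Function.Surjective θ := by
    intro y
    obtain ⟨y, rfl⟩ := residue_surjective y
    obtain ⟨f, hf0, hf⟩ := halg y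
    have hC : Irreducible (Polynomial.C (inc (q : OL A (KI A)))) :=
      (Polynomial.prime_C_iff.mpr hirr.prime).irreducible
    obtain ⟨n, g, hg, hfg⟩ := WfDvdMonoid.max_power_factor hf0 hC
    have hq0 : j (inc (q : OL A (KI A))) ≠ 0 := by
      rw [Ne, map_eq_zero_iff j hj]
      exact hirr.ne_zero
    have hg0 : g.eval₂ j y = 0 := by
      rw [hfg, Polynomial.eval₂_mul, Polynomial.eval₂_pow, Polynomial.eval₂_C] at hf
      exact (mul_eq_zero.mp hf).resolve_left (pow_ne_zero _ hq0)
    have hgr : g.map red ≠ 0 := by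
      intro h0
      apply hg
      rw [Polynomial.C_dvd_iff_dvd_coeff]
      intro i
      rw [← hred, ← Polynomial.coeff_map, h0, Polynomial.coeff_zero]
    have hroot : ((g.map red).map θ).IsRoot (residue B y) := by
      rw [Polynomial.IsRoot, Polynomial.map_map]
      have h1 : θ.comp red = (residue B).comp jB := RingHom.ext hθred
      rw [h1, Polynomial.eval_map]
      have h2 : g.eval₂ jB y = 0 := by
        apply Subtype.ext
        have h3 := Polynomial.hom_eval₂ g jB B.subtype y
        exact h3.trans hg0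
      rw [← Polynomial.hom_eval₂, h2, map_zero]
    obtain ⟨c, hc⟩ := (IsAlgClosed.splits (g.map red)).mem_range_of_isRoot hgr hroot
    exact ⟨c, hc⟩
  let e : ResidueField A ≃+* ResidueField B := RingEquiv.ofBijective θ ⟨θ.injective, hsurj⟩
  have he : ∀ c, e c = θ c := fun _ => rfl
  let res : B →+* ResidueField A := (e.symm : ResidueField B →+* ResidueField A).comp (residue B)
  have hres : ∀ y, e (res y) = residue B y := fun y => e.apply_symm_apply _
  refine ⟨res, ?_, ?_, ?_, ?_, ?_⟩
  · intro y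
    obtain ⟨b, hb⟩ := residue_surjective (e y)
    refine ⟨b, e.injective ?_⟩
    rw [hres, hb]
  · intro y
    rw [← map_eq_zero_iff e e.injective, hres, residue_eq_zero_iff]
    exact ValuationSubring.valuation_lt_one_iff B _
  · intro a h
    apply e.injective
    rw [hres, he, hθ]
    rfl
  · intro x
    apply e.injective
    rw [hres, he, hθred]
    rfl
  · intro y hy
    obtain ⟨c, hc⟩ := hsurj (residue B ⟨y, hy⟩)
    obtain ⟨a, ha⟩ := residueComp_surjective hq hA le_rfl c
    refine ⟨a, ?_⟩
    rw [← ha, RingHom.comp_apply, hθ, eq_comm, ← sub_eq_zero, ← map_sub,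
      residue_eq_zero_iff] at hc
    exact (ValuationSubring.valuation_lt_one_iff B _).mp hc

/-- the value group does not change up to torsion -/
theorem exists_val (hq : q.Prime)
    (hj : Function.Injective j)
    (hψ : ∀ a : OL A (KI A), j (inc a) = ψ ((a : KI A) : Qb)) (hjB : ∀ x, j x ∈ B)
    (hirr : Irreducible (inc (q : OL A (KI A))))
    (halg : ∀ y : Ω, ∃ f : Polynomial O, f ≠ 0 ∧ f.eval₂ j y = 0) {c : Ω} (hc : c ≠ 0) :
    ∃ a : Qb, a ≠ 0 ∧ B.valuation c = B.valuation (ψ a) := by
  classical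
  have hqn : ((q : ℕ) : Qb) ≠ 0 := by exact_mod_cast hq.ne_zero
  have hjq : j (inc (q : OL A (KI A))) = ψ (q : Qb) := by
    rw [hψ, coe_natCast]
  have hv0 : B.valuation (ψ (q : Qb)) ≠ 0 := by
    rw [Valuation.ne_zero_iff]
    exact (map_ne_zero ψ).mpr hqn
  have hvc : B.valuation c ≠ 0 := (Valuation.ne_zero_iff _).mpr hc
  have hval : ∀ x : O, x ≠ 0 → ∃ n : ℕ, B.valuation (j x) = B.valuation (ψ (q : Qb)) ^ n := by
    intro x hx
    obtain ⟨n, u, rfl⟩ := IsDiscreteValuationRing.eq_unit_mul_pow_irreducible hx hirr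
    refine ⟨n, ?_⟩
    have h1 : B.valuation (j (u : O)) = 1 := by
      refine le_antisymm ((B.valuation_le_one_iff _).mpr (hjB _)) ?_
      have h2 : B.valuation (j ((u⁻¹ : Oˣ) : O)) ≤ 1 := (B.valuation_le_one_iff _).mpr (hjB _)
      have h3 : j (u : O) * j ((u⁻¹ : Oˣ) : O) = 1 := by
        rw [← map_mul, Units.mul_inv, map_one]
      have h4 := congrArg B.valuation h3
      rw [map_mul, map_one] at h4
      by_contra hcon
      exact absurd h4 (mul_lt_one_of_lt_of_le (not_le.mp hcon) h2).ne
    rw [map_mul, map_pow, map_mul, map_pow, h1, one_mul, hjq]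
  obtain ⟨f, hf0, hf⟩ := halg c
  have hsum : ∑ i ∈ f.support, j (f.coeff i) * c ^ i = 0 := by
    rw [Polynomial.eval₂_eq_sum, Polynomial.sum] at hf
    exact hf
  have hne : ∀ i ∈ f.support, j (f.coeff i) * c ^ i ≠ 0 := by
    intro i hi
    refine mul_ne_zero ?_ (pow_ne_zero i hc)
    rw [Ne, map_eq_zero_iff j hj]
    exact Polynomial.mem_support_iff.mp hi
  obtain ⟨i₀, hi₀⟩ : f.support.Nonempty := Polynomial.support_nonempty.mpr hf0
  obtain ⟨i, hi, i', hi', hii, -, heq⟩ :=
    exists_eq_val_of_sum_eq_zero (v := B.valuation) hsum hi₀ (hne i₀ hi₀)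
  have key : ∀ i i' : ℕ, i ∈ f.support → i' ∈ f.support → i < i' →
      B.valuation (j (f.coeff i) * c ^ i) = B.valuation (j (f.coeff i') * c ^ i') →
      ∃ t : ℕ, 0 < t ∧ ∃ s : ℤ, B.valuation c ^ t = B.valuation (ψ (q : Qb)) ^ s := by
    intro i i' hi hi' hii heq
    obtain ⟨n, hn⟩ := hval _ (Polynomial.mem_support_iff.mp hi)
    obtain ⟨n', hn'⟩ := hval _ (Polynomial.mem_support_iff.mp hi')
    refine ⟨i' - i, by omega, (n : ℤ) - n', ?_⟩
    rw [map_mul, map_mul, map_pow, map_pow, hn, hn'] at heq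
    rw [zpow_sub₀ hv0, zpow_natCast, zpow_natCast, eq_div_iff (pow_ne_zero _ hv0)]
    have h1 : B.valuation c ^ i' = B.valuation c ^ (i' - i) * B.valuation c ^ i := by
      rw [← pow_add]; congr 1; omega
    rw [h1] at heq
    have h3 : (B.valuation c ^ (i' - i) * B.valuation (ψ (q : Qb)) ^ n') * B.valuation c ^ i =
        B.valuation (ψ (q : Qb)) ^ n * B.valuation c ^ i := by
      rw [heq, mul_comm (B.valuation c ^ (i' - i)), mul_assoc]
    exact mul_right_cancel₀ (pow_ne_zero i hvc) h3
  obtain ⟨t, ht, s, hs⟩ : ∃ t : ℕ, 0 < t ∧ ∃ s : ℤ,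
      B.valuation c ^ t = B.valuation (ψ (q : Qb)) ^ s := by
    rcases lt_or_gt_of_ne hii with h | h
    · exact key i i' hi hi' h heq
    · exact key i' i hi' hi h heq.symm
  obtain ⟨a, ha⟩ := IsAlgClosed.exists_pow_nat_eq ((q : Qb) ^ s) ht
  refine ⟨a, ?_, ?_⟩
  · rintro rfl
    rw [zero_pow ht.ne'] at ha
    exact zpow_ne_zero _ hqn ha.symm
  · have h1 : B.valuation (ψ a) ^ t = B.valuation c ^ t := by
      rw [hs, ← map_pow, ← map_pow, ha, map_zpow₀, map_zpow₀]
    exact ((pow_left_inj₀ zero_le zero_le ht.ne').mp h1).symm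

end

/-- The data of a completion of the inertia field and a place extending the given one, embedded in
the complex numbers. -/
structure BigPlace (A : ValuationSubring Qb) (q : ℕ) where
  /-- the complete discrete valuation ring -/
  O : Type
  [cr : CommRing O]
  [dom : IsDomain O]
  [dvr : IsDiscreteValuationRing O]
  /-- the completion map -/
  inc : OL A (KI A) →+* O
  inj : Function.Injective inc
  complete : IsAdicComplete (Ideal.span {inc (q : OL A (KI A))}) O
  irr : Irreducible (inc (q : OL A (KI A)))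
  approx : ∀ (n : ℕ) (x : O), ∃ a, inc (q : OL A (KI A)) ^ n ∣ x - inc a
  dvd_iff : ∀ (n : ℕ) (a : OL A (KI A)), inc (q : OL A (KI A)) ^ n ∣ inc a ↔
    (q : OL A (KI A)) ^ n ∣ a
  /-- reduction -/
  red : O →+* ResidueField A
  red_surj : Function.Surjective red
  red_ker : ∀ x, red x = 0 ↔ inc (q : OL A (KI A)) ∣ x
  red_inc : ∀ a : OL A (KI A), red (inc a) = residue A (subA a)
  /-- the big algebraically closed field -/
  Ω : Type
  [fld : Field Ω]
  [ac : IsAlgClosed Ω]
  /-- the embedding of the complete ring -/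
  j : O →+* Ω
  j_inj : Function.Injective j
  /-- the embedding of the algebraic numbers -/
  ψ : Qb →+* Ω
  j_inc : ∀ a : OL A (KI A), j (inc a) = ψ ((a : KI A) : Qb)
  /-- the embedding in the complex numbers -/
  ι : Ω →+* ℂ
  ι_ψ : ι.comp ψ = Fermat.Agent.ESCore.ιC
  /-- the place of the big field -/
  B : ValuationSubring Ω
  j_mem : ∀ x, j x ∈ B
  j_lt : ∀ x, B.valuation (j x) < 1 ↔ ¬ IsUnit x
  ψ_le : ∀ a : Qb, B.valuation (ψ a) ≤ 1 ↔ A.valuation a ≤ 1
  ψ_lt : ∀ a : Qb, B.valuation (ψ a) < 1 ↔ A.valuation a < 1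
  ψ_mem : ∀ a : Qb, ψ a ∈ B ↔ a ∈ A
  /-- reduction -/
  res : B →+* ResidueField A
  res_surj : Function.Surjective res
  res_ker : ∀ y : B, res y = 0 ↔ B.valuation (y : Ω) < 1
  res_ψ : ∀ (a : A) (h : ψ a ∈ B), res ⟨ψ a, h⟩ = residue A a
  res_j : ∀ x : O, res ⟨j x, j_mem x⟩ = red x
  near : ∀ y ∈ B, ∃ a : OL A (KI A), B.valuation (y - ψ ((a : KI A) : Qb)) < 1
  val : ∀ c : Ω, c ≠ 0 → ∃ a : Qb, a ≠ 0 ∧ B.valuation c = B.valuation (ψ a)

attribute [instance] BigPlace.cr BigPlace.dom BigPlace.dvr BigPlace.fld BigPlace.ac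

/-- (C4) -/
theorem exists_bigPlace (hq : q.Prime) (hA : A.LiesOverPrime q) : Nonempty (BigPlace A q) := by
  have := dvr_KI hq hA
  have hcQ : Countable Qb := by
    rw [← Cardinal.mk_le_aleph0_iff]
    exact (Algebra.IsAlgebraic.cardinalMk_le_max ℚ Qb).trans (by simp)
  have hcK : Countable (KI A) := inferInstance
  have hcO : Countable (OL A (KI A)) := inferInstance
  obtain ⟨O, icr, idom, idvr, inc, hinj, hcomp, hirr, happ, hdvd, hcard⟩ :=
    exists_completion (OL A (KI A)) (prime_q hq hA)
  obtain ⟨red, hrs, hrk, hri⟩ := exists_red (inc := inc) hq hA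
    (fun x => by simpa using happ 1 x) (fun a => by simpa using (hdvd 1 a).mp)
  let Ω := AlgebraicClosure (FractionRing O)
  let j : O →+* Ω := (algebraMap (FractionRing O) Ω).comp (algebraMap O (FractionRing O))
  have hj : Function.Injective j :=
    (algebraMap (FractionRing O) Ω).injective.comp (IsFractionRing.injective O (FractionRing O))
  obtain ⟨ψ, hψ⟩ := exists_psi j inc (hj.comp hinj)
  obtain ⟨B, hjB, hloc⟩ := exists_dominating j
  have hlq : B.valuation (j (inc (q : OL A (KI A)))) < 1 := hloc _ hirr.not_isUnit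
  have halg : ∀ y : Ω, ∃ f : Polynomial O, f ≠ 0 ∧ f.eval₂ j y = 0 := by
    intro y
    have h1 : IsAlgebraic (FractionRing O) y := Algebra.IsAlgebraic.isAlgebraic y
    have h2 : IsAlgebraic O y := (IsFractionRing.isAlgebraic_iff O (FractionRing O) Ω).mpr h1
    obtain ⟨f, hf0, hf⟩ := h2
    refine ⟨f, hf0, ?_⟩
    have h3 : algebraMap O Ω = j := IsScalarTower.algebraMap_eq O (FractionRing O) Ω
    rw [← h3]
    exact hf
  obtain ⟨res, h1, h2, h3, h4, h5⟩ := exists_res hq hA hj hψ hjB hirr hlq
    (fun x => by simpa using happ 1 x) hrk hri halg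
  have hΩ : #Ω ≤ Cardinal.continuum := by
    have e1 : #(FractionRing O) ≤ Cardinal.continuum := by
      have e2 : Function.Surjective (fun p : O × nonZeroDivisors O =>
          IsLocalization.mk' (FractionRing O) p.1 p.2) := by
        intro z
        obtain ⟨x, y, hxy⟩ := IsLocalization.exists_mk'_eq (nonZeroDivisors O) z
        exact ⟨(x, y), hxy⟩
      refine (Cardinal.mk_le_of_surjective e2).trans ?_
      rw [Cardinal.mk_prod, Cardinal.lift_id, Cardinal.lift_id]
      refine (mul_le_mul' hcard ((Cardinal.mk_set_le _).trans hcard)).trans ?_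
      rw [Cardinal.continuum_mul_self]
    refine (Algebra.IsAlgebraic.cardinalMk_le_max (FractionRing O) Ω).trans ?_
    exact max_le e1 Cardinal.aleph0_le_continuum
  obtain ⟨ι, hι⟩ := exists_embC hΩ ψ Fermat.Agent.ESCore.ιC
  exact ⟨{ O := O, inc := inc, inj := hinj, complete := hcomp, irr := hirr, approx := happ,
           dvd_iff := hdvd, red := red, red_surj := hrs, red_ker := hrk, red_inc := hri,
           Ω := Ω, j := j, j_inj := hj, ψ := ψ, j_inc := hψ, ι := ι, ι_ψ := hι, B := B,
           j_mem := hjB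
           j_lt := fun x => ⟨fun h hu => by
             obtain ⟨u, rfl⟩ := hu
             have e1 : B.valuation (j ((u⁻¹ : Oˣ) : O)) ≤ 1 :=
               (B.valuation_le_one_iff _).mpr (hjB _)
             have e2 : j (u : O) * j ((u⁻¹ : Oˣ) : O) = 1 := by
               rw [← map_mul, Units.mul_inv, map_one]
             have e3 := congrArg B.valuation e2
             rw [map_mul, map_one] at e3
             have e4 := mul_lt_one_of_lt_of_le h e1
             exact absurd e3 e4.ne, hloc x⟩
           ψ_le := fun a => psi_le_iff hq hA hψ hjB hlq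
           ψ_lt := fun a => psi_lt_iff hq hA hψ hjB hlq
           ψ_mem := fun a => by
             rw [← B.valuation_le_one_iff, ← A.valuation_le_one_iff]
             exact psi_le_iff hq hA hψ hjB hlq
           res := res, res_surj := h1, res_ker := h2, res_ψ := h3, res_j := h4, near := h5
           val := fun c hc => exists_val hq hj hψ hjB hirr halg hc }⟩

end Fermat.Agent.CD
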