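import Mathlib
import Fermat.Agent.CD.BigPlace2

/-!
# Roots of bounded series
-/

set_option autoImplicit false
set_option linter.unusedSectionVars false

open ModularCurve

noncomputable section

namespace Fermat.Agent.CD

section Int

variable {Ω : Type*} [Field Ω]

/-- complete integral closedness -/
def Arch (S : Subring Ω) : Prop := ∀ d f : Ω, d ≠ 0 → (∀ i : ℕ, d * f ^ i ∈ S) → f ∈ S

/-- series with coefficients in a subring -/
def cf (S : Subring Ω) : Subring (LaurentSeries Ω) := (coeffMap S.subtype).range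

theorem mem_cf {S : Subring Ω} {x : LaurentSeries Ω} : x ∈ cf S ↔ ∀ n, x.coeff n ∈ S := by
  constructor
  · rintro ⟨y, rfl⟩ n
    rw [coeffMap_coeff]
    exact (y.coeff n).2
  · intro h
    refine ⟨⟨fun n => ⟨x.coeff n, h n⟩, ?_⟩, ?_⟩
    · refine x.isPWO_support.mono fun n hn => ?_
      rw [Function.mem_support] at hn
      rw [HahnSeries.mem_support]
      intro h0
      exact hn (Subtype.ext h0)
    · ext n
      rfl

theorem C_mem_cf {S : Subring Ω} {a : Ω} (ha : a ∈ S) : (HahnSeries.C a : LaurentSeries Ω) ∈ cf S :=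
  ⟨HahnSeries.C ⟨a, ha⟩, by
    rw [HahnSeries.C_apply, HahnSeries.C_apply]
    exact coeffMap_single _ _ _⟩

theorem single_mem_cf {S : Subring Ω} (k : ℤ) :
    (HahnSeries.single k (1 : Ω) : LaurentSeries Ω) ∈ cf S :=
  ⟨HahnSeries.single k 1, by
    rw [coeffMap_single, map_one]⟩

theorem ps_coeff_mem {S : Subring Ω} (hS : Arch S) {D F : PowerSeries Ω} (hD : D ≠ 0)
    (h : ∀ i n : ℕ, PowerSeries.coeff n (D * F ^ i) ∈ S) (n : ℕ) : PowerSeries.coeff n F ∈ S := by
  induction n using Nat.strong_induction_on with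
  | h n ih =>
    obtain ⟨s, D0, hd0, hD0⟩ : ∃ (s : ℕ) (D0 : PowerSeries Ω),
        PowerSeries.constantCoeff D0 ≠ 0 ∧ D = PowerSeries.X ^ s * D0 := by
      obtain ⟨D0, hD0⟩ := PowerSeries.X_pow_order_dvd (φ := D)
      refine ⟨D.order.toNat, D0, ?_, hD0⟩
      intro h0
      apply PowerSeries.coeff_order hD
      have h1 : ∀ k, PowerSeries.coeff k D = PowerSeries.coeff k (PowerSeries.X ^ D.order.toNat * D0) :=
        fun k => congrArg _ hD0
      rw [h1, PowerSeries.coeff_X_pow_mul', if_pos le_rfl, Nat.sub_self,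
        PowerSeries.coeff_zero_eq_constantCoeff, h0]
    let P : Subring (PowerSeries Ω) := (PowerSeries.map S.subtype).range
    have hP : ∀ f : PowerSeries Ω, f ∈ P ↔ ∀ k, PowerSeries.coeff k f ∈ S := by
      intro f
      constructor
      · rintro ⟨g, rfl⟩ k
        rw [PowerSeries.coeff_map]
        exact (PowerSeries.coeff k g).2
      · intro hf
        refine ⟨PowerSeries.mk fun k => ⟨PowerSeries.coeff k f, hf k⟩, ?_⟩
        ext k
        rw [PowerSeries.coeff_map, PowerSeries.coeff_mk]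
        rfl
    let T : PowerSeries Ω := PowerSeries.mk fun k => if k < n then PowerSeries.coeff k F else 0
    have hT : T ∈ P := by
      rw [hP]
      intro k
      rw [PowerSeries.coeff_mk]
      split_ifs with hk
      · exact ih k hk
      · exact S.zero_mem
    let G : PowerSeries Ω := PowerSeries.mk fun k => PowerSeries.coeff (k + n) F
    have hG : F - T = PowerSeries.X ^ n * G := by
      ext k
      rw [map_sub, PowerSeries.coeff_mk, PowerSeries.coeff_X_pow_mul']
      rcases lt_or_ge k n with hk | hk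
      · rw [if_pos hk, if_neg (not_le.mpr hk), sub_self]
      · rw [if_neg (not_lt.mpr hk), if_pos hk, sub_zero, PowerSeries.coeff_mk,
          Nat.sub_add_cancel hk]
    have hG0 : PowerSeries.constantCoeff G = PowerSeries.coeff n F := by
      rw [← PowerSeries.coeff_zero_eq_constantCoeff, PowerSeries.coeff_mk, zero_add]
    have h1 : ∀ i : ℕ, D * (F - T) ^ i ∈ P := by
      intro i
      rw [sub_eq_add_neg, add_pow, Finset.mul_sum]
      refine Subring.sum_mem _ fun j _ => ?_
      have e : D * (F ^ j * (-T) ^ (i - j) * (i.choose j : PowerSeries Ω)) =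
          (D * F ^ j) * ((-T) ^ (i - j) * (i.choose j : PowerSeries Ω)) := by ring
      rw [e]
      exact mul_mem ((hP _).mpr (h j)) (mul_mem (pow_mem (neg_mem hT) _) (natCast_mem _ _))
    apply hS (PowerSeries.constantCoeff D0) _ hd0
    intro i
    have h2 := (hP _).mp (h1 i) (s + n * i)
    have h3 : D * (F - T) ^ i = PowerSeries.X ^ (s + n * i) * (D0 * G ^ i) := by
      rw [hG]
      conv_lhs => rw [hD0]
      rw [mul_pow, ← pow_mul, pow_add]
      ring
    rw [h3, PowerSeries.coeff_X_pow_mul', if_pos le_rfl, Nat.sub_self,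
      PowerSeries.coeff_zero_eq_constantCoeff, map_mul, map_pow, hG0] at h2
    exact h2

theorem ls_mem {S : Subring Ω} (hS : Arch S) {D F : LaurentSeries Ω} (hD : D ≠ 0)
    (h : ∀ i : ℕ, D * F ^ i ∈ cf S) : F ∈ cf S := by
  obtain ⟨a, D1, e1⟩ : ∃ (a : ℤ) (D1 : PowerSeries Ω),
      D = HahnSeries.single a (1 : Ω) * HahnSeries.ofPowerSeries ℤ Ω D1 :=
    ⟨_, _, D.single_order_mul_powerSeriesPart.symm⟩
  obtain ⟨b, F1, e2⟩ : ∃ (a : ℤ) (D1 : PowerSeries Ω),
      F = HahnSeries.single a (1 : Ω) * HahnSeries.ofPowerSeries ℤ Ω D1 :=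
    ⟨_, _, F.single_order_mul_powerSeriesPart.symm⟩
  have hD10 : D1 ≠ 0 := by
    intro h0
    rw [h0, map_zero, mul_zero] at e1
    exact hD e1
  have h1 : ∀ i : ℕ, HahnSeries.ofPowerSeries ℤ Ω (D1 * F1 ^ i) ∈ cf S := by
    intro i
    have h3 : (HahnSeries.single (-(a + i * b)) (1 : Ω) : LaurentSeries Ω) *
        (HahnSeries.single a 1 * HahnSeries.single b 1 ^ i) = 1 := by
      rw [HahnSeries.single_pow, one_pow, HahnSeries.single_mul_single,
        HahnSeries.single_mul_single, mul_one, mul_one, nsmul_eq_mul]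
      have h4 : -(a + i * b) + (a + i * b) = 0 := by ring
      rw [h4]
      rfl
    have h2 : HahnSeries.ofPowerSeries ℤ Ω (D1 * F1 ^ i) =
        HahnSeries.single (-(a + i * b)) (1 : Ω) * (D * F ^ i) := by
      rw [e1, e2, map_mul, map_pow]
      linear_combination (-(HahnSeries.ofPowerSeries ℤ Ω D1 *
        HahnSeries.ofPowerSeries ℤ Ω F1 ^ i)) * h3
    rw [h2]
    exact mul_mem (single_mem_cf _) (h i)
  have h2 : ∀ n, PowerSeries.coeff n F1 ∈ S := by
    apply ps_coeff_mem hS hD10
    intro i n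
    have h3 := (mem_cf.mp (h1 i)) n
    rwa [HahnSeries.ofPowerSeries_apply_coeff] at h3
  rw [e2]
  refine mul_mem (single_mem_cf _) (mem_cf.mpr fun n => ?_)
  rcases lt_or_ge n 0 with hn | hn
  · rw [ofPowerSeries_coeff_of_neg _ hn]
    exact S.zero_mem
  · lift n to ℕ using hn
    rw [HahnSeries.ofPowerSeries_apply_coeff]
    exact h2 n

/-- roots of bounded series, which are fractions of bounded series, are bounded -/
theorem root_mem {S : Subring Ω} (hS : Arch S) {D F : LaurentSeries Ω} (hD0 : D ≠ 0) {m : ℕ}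
    (hm : 0 < m) (h1 : F ^ m ∈ cf S) (hD : D ∈ cf S) (h2 : D * F ∈ cf S) : F ∈ cf S := by
  apply ls_mem hS (pow_ne_zero m hD0)
  intro i
  have h3 : D ^ m * F ^ i = D ^ (m - i % m) * ((D * F) ^ (i % m) * (F ^ m) ^ (i / m)) := by
    have h4 : i % m < m := Nat.mod_lt _ hm
    conv_lhs => rw [← Nat.div_add_mod i m, ← Nat.sub_add_cancel h4.le, pow_add, pow_add]
    rw [Nat.sub_add_cancel h4.le, mul_pow, ← pow_mul]
    ring
  rw [h3]
  exact mul_mem (pow_mem hD _) (mul_mem (pow_mem h2 _) (pow_mem h1 _))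

end Int

end Fermat.Agent.CD
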