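import Mathlib
import Fermat.Agent.CD.LdA
import Fermat.Agent.CD.Desc
import Fermat.Agent.Flat.FinGen

/-!
# Normalised series with character
-/

set_option autoImplicit false
set_option linter.unusedSectionVars false

open ModularCurve Fermat.Agent.ModFun Fermat.Agent.ESCore IntermediateField Fermat.Agent.LG
open IsLocalRing
open CongruenceSubgroup (Gamma0)
open scoped MatrixGroups IntermediateField.algebraAdjoinAdjoin

noncomputable section

namespace Fermat.Agent.CD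

section Bdd

variable {K : Type*} [Field K] (B : ValuationSubring K) {N : ℕ} [NeZero N]

theorem qExpand_jqModC_mem_cf {S : Subring K} (d : ℕ) [NeZero d] :
    qExpand K d (jqModC K) ∈ cf S :=
  ⟨qExpand S d (jqModC S), by rw [ModularCurve.coeffMap_qExpand, coeffMap_jqModC]⟩

/-- elements of the coordinate ring are bounded -/
theorem exists_bdd {x : LaurentSeries K} (hx : x ∈ A0 K N) :
    ∃ c ∈ B, c ≠ 0 ∧ HahnSeries.C c * x ∈ cf B.toSubring := by
  induction hx using Algebra.adjoin_induction with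
  | mem x hx =>
    obtain ⟨d, hd0, hd, rfl⟩ := hx
    refine ⟨1, B.one_mem, one_ne_zero, ?_⟩
    rw [map_one, one_mul]
    exact qExpand_jqModC_mem_cf d
  | algebraMap r =>
    rw [algebraMap_laurentSeries_eq_single]
    rcases B.mem_or_inv_mem r with hr | hr
    · refine ⟨1, B.one_mem, one_ne_zero, ?_⟩
      rw [map_one, one_mul]
      exact C_mem_cf hr
    · rcases eq_or_ne r 0 with rfl | hr0
      · refine ⟨1, B.one_mem, one_ne_zero, ?_⟩
        rw [map_one, one_mul]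
        exact C_mem_cf B.zero_mem
      · refine ⟨r⁻¹, hr, inv_ne_zero hr0, ?_⟩
        have h1 : (HahnSeries.C r⁻¹ : LaurentSeries K) * HahnSeries.single 0 r = 1 := by
          have h2 : (HahnSeries.single 0 r : LaurentSeries K) = HahnSeries.C r := rfl
          rw [h2, ← map_mul, inv_mul_cancel₀ hr0, map_one]
        rw [h1]
        exact one_mem _
  | add x y _ _ hx hy =>
    obtain ⟨c, hc, hc0, h⟩ := hx
    obtain ⟨c', hc', hc0', h'⟩ := hy
    refine ⟨c * c', mul_mem hc hc', mul_ne_zero hc0 hc0', ?_⟩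
    have e : HahnSeries.C (c * c') * (x + y) = HahnSeries.C c' * (HahnSeries.C c * x) +
        HahnSeries.C c * (HahnSeries.C c' * y) := by
      rw [map_mul]; ring
    rw [e]
    exact add_mem (mul_mem (C_mem_cf hc') h) (mul_mem (C_mem_cf hc) h')
  | mul x y _ _ hx hy =>
    obtain ⟨c, hc, hc0, h⟩ := hx
    obtain ⟨c', hc', hc0', h'⟩ := hy
    refine ⟨c * c', mul_mem hc hc', mul_ne_zero hc0 hc0', ?_⟩
    have e : HahnSeries.C (c * c') * (x * y) = (HahnSeries.C c * x) * (HahnSeries.C c' * y) := by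
      rw [map_mul]; ring
    rw [e]
    exact mul_mem h h'

/-- normalisation over a discretely valued field -/
theorem exists_norm_dvr [IsDiscreteValuationRing B] {x : LaurentSeries K} (hx : x ∈ A0 K N)
    (hx0 : x ≠ 0) : ∃ c : K, c ≠ 0 ∧ HahnSeries.C c * x ∈ cf B.toSubring ∧
      ∃ n, (HahnSeries.C c * x).coeff n = 1 := by
  classical
  obtain ⟨c, hc, hc0, y, hy⟩ := exists_bdd B hx
  have hcoe : ∀ n, ((y.coeff n : B) : K) = (HahnSeries.C c * x).coeff n := fun n => by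
    rw [← hy]
    rfl
  have hcx : HahnSeries.C c * x ≠ 0 := mul_ne_zero (fun h => hc0 (by
    rw [← map_zero (HahnSeries.C : K →+* LaurentSeries K)] at h
    exact HahnSeries.C_injective h)) hx0
  obtain ⟨n, hn⟩ : ∃ n, (HahnSeries.C c * x).coeff n ≠ 0 := by
    by_contra hcon
    push Not at hcon
    apply hcx
    ext n
    exact hcon n
  let φ : ℤ → ℕ∞ := fun n => IsDiscreteValuationRing.addVal B (y.coeff n)
  obtain ⟨n₀, hn₀⟩ : ∃ n₀, ∀ n, φ n₀ ≤ φ n := by
    have h1 : (Set.range φ).Nonempty := ⟨_, ⟨0, rfl⟩⟩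
    obtain ⟨n₀, hn₀⟩ := wellFounded_lt.min_mem (Set.range φ) h1
    refine ⟨n₀, fun n => ?_⟩
    rw [hn₀]
    exact not_lt.mp (wellFounded_lt.not_lt_min (Set.range φ) ⟨n, rfl⟩)
  have hdvd : ∀ n, (y.coeff n₀ : B) ∣ y.coeff n := fun n =>
    IsDiscreteValuationRing.addVal_le_iff_dvd.mp (hn₀ n)
  have hne : ((y.coeff n₀ : B) : K) ≠ 0 := by
    intro h0
    obtain ⟨b, hb⟩ := hdvd n
    apply hn
    rw [← hcoe, hb]
    change ((y.coeff n₀ : B) : K) * (b : K) = 0
    rw [h0, zero_mul]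
  refine ⟨((y.coeff n₀ : B) : K)⁻¹ * c, mul_ne_zero (inv_ne_zero hne) hc0, ?_, n₀, ?_⟩
  · rw [mem_cf]
    intro n
    rw [map_mul, mul_assoc, HahnSeries.C_mul_eq_smul, HahnSeries.coeff_smul, ← hcoe, smul_eq_mul]
    obtain ⟨b, hb⟩ := hdvd n
    rw [hb]
    change ((y.coeff n₀ : B) : K)⁻¹ * (((y.coeff n₀ : B) : K) * (b : K)) ∈ B.toSubring
    rw [inv_mul_cancel_left₀ hne]
    exact b.2
  · rw [map_mul, mul_assoc, HahnSeries.C_mul_eq_smul, HahnSeries.coeff_smul, ← hcoe, smul_eq_mul,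
      inv_mul_cancel₀ hne]

end Bdd

section Qb

variable {A : ValuationSubring Qb} {q : ℕ} {N : ℕ} [NeZero N]

theorem exists_finset {x : LaurentSeries Qb} (hx : x ∈ A0 Qb N) :
    ∃ S : Finset Qb, ∀ L : IntermediateField ℚ Qb, (∀ s ∈ S, s ∈ L) →
      ∃ x' ∈ A0 L N, coeffMap (algebraMap L Qb) x' = x := by
  classical
  induction hx using Algebra.adjoin_induction with
  | mem x hx =>
    obtain ⟨d, hd0, hd, rfl⟩ := hx
    refine ⟨∅, fun L _ => ⟨qExpand L d (jqModC L), Algebra.subset_adjoin ⟨d, hd0, hd, rfl⟩, ?_⟩⟩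
    rw [ModularCurve.coeffMap_qExpand, coeffMap_jqModC]
  | algebraMap r =>
    refine ⟨{r}, fun L hL => ⟨algebraMap L _ ⟨r, hL r (Finset.mem_singleton_self r)⟩,
      Subalgebra.algebraMap_mem _ _, ?_⟩⟩
    rw [algebraMap_laurentSeries_eq_single, algebraMap_laurentSeries_eq_single, coeffMap_single]
    rfl
  | add x y _ _ hx hy =>
    obtain ⟨S, hS⟩ := hx
    obtain ⟨T, hT⟩ := hy
    refine ⟨S ∪ T, fun L hL => ?_⟩
    obtain ⟨x', hx', h⟩ := hS L fun s hs => hL s (Finset.mem_union_left _ hs)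
    obtain ⟨y', hy', h'⟩ := hT L fun s hs => hL s (Finset.mem_union_right _ hs)
    exact ⟨x' + y', add_mem hx' hy', by rw [map_add, h, h']⟩
  | mul x y _ _ hx hy =>
    obtain ⟨S, hS⟩ := hx
    obtain ⟨T, hT⟩ := hy
    refine ⟨S ∪ T, fun L hL => ?_⟩
    obtain ⟨x', hx', h⟩ := hS L fun s hs => hL s (Finset.mem_union_left _ hs)
    obtain ⟨y', hy', h'⟩ := hT L fun s hs => hL s (Finset.mem_union_right _ hs)
    exact ⟨x' * y', mul_mem hx' hy', by rw [map_mul, h, h']⟩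

/-- normalisation over the algebraic numbers -/
theorem exists_norm (hq : q.Prime) (hA : A.LiesOverPrime q) {x : LaurentSeries Qb}
    (hx : x ∈ A0 Qb N) (hx0 : x ≠ 0) : ∃ c : Qb, c ≠ 0 ∧ HahnSeries.C c * x ∈ cf A.toSubring ∧
      ∃ n, (HahnSeries.C c * x).coeff n = 1 := by
  obtain ⟨S, hS⟩ := exists_finset hx
  obtain ⟨L, hL, hSL⟩ := Ar.exists_of_finset hq hA S
  obtain ⟨x', hx', rfl⟩ := hS L hSL
  have := hL.dvr
  have hx0' : x' ≠ 0 := by
    rintro rfl
    exact hx0 (map_zero _)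
  obtain ⟨c, hc0, hc, n, hn⟩ := exists_norm_dvr (OL A L) hx' hx0'
  have h1 : (HahnSeries.C (algebraMap L Qb c) : LaurentSeries Qb) *
      coeffMap (algebraMap L Qb) x' = coeffMap (algebraMap L Qb) (HahnSeries.C c * x') := by
    rw [map_mul]
    congr 1
    rw [HahnSeries.C_apply, HahnSeries.C_apply, coeffMap_single]
  refine ⟨algebraMap L Qb c, (map_ne_zero _).mpr hc0, ?_, n, ?_⟩
  · rw [h1, mem_cf]
    intro n
    rw [coeffMap_coeff]
    exact mem_cf.mp hc n
  · rw [h1, coeffMap_coeff, hn, map_one]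

/-- a normalised series with character -/
theorem exists_norm_xSer (hq : q.Prime) (hA : A.LiesOverPrime q) {m : ℕ} (hm : 0 < m)
    (χ : XG N m) : ∃ y : LaurentSeries Qb, y ≠ 0 ∧ XSer ιC N χ.1 y ∧ y ^ m ∈ cf A.toSubring ∧
      ∃ n, (y ^ m).coeff n = 1 := by
  obtain ⟨y₀, hy₀, hx₀⟩ := exists_xSer hm χ
  have hF : y₀ ^ m ∈ F0 Qb N := hx₀.pow_mem_F0 χ.2.1
  obtain ⟨a, b, hb, hab⟩ := IsFractionRing.div_surjective
    (A := Algebra.adjoin Qb (gens Qb N)) (⟨y₀ ^ m, hF⟩ : IntermediateField.adjoin Qb (gens Qb N))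
  have hb0 : b ≠ 0 := nonZeroDivisors.ne_zero hb
  have hb0' : (b : LaurentSeries Qb) ≠ 0 := fun h => hb0 (Subtype.ext h)
  have h1 : (b : LaurentSeries Qb) * y₀ ^ m = a := by
    have h2 := congrArg (fun z : IntermediateField.adjoin Qb (gens Qb N) =>
      (z : LaurentSeries Qb)) hab
    change (a : LaurentSeries Qb) / (b : LaurentSeries Qb) = y₀ ^ m at h2
    rw [← h2, mul_div_cancel₀ _ hb0']
  have hle : A0 Qb N ≤ holC ιC N := Algebra.adjoin_le gens_subset_holC
  have hbx : XSer ιC N 1 (b : LaurentSeries Qb) := xSer_one_iff.mpr (hle b.2)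
  have hy1 : XSer ιC N χ.1 ((b : LaurentSeries Qb) * y₀) := by
    have h2 := hbx.mul hx₀
    rwa [char_one_mul] at h2
  have hy10 : (b : LaurentSeries Qb) * y₀ ≠ 0 := mul_ne_zero hb0' hy₀
  have hyA : ((b : LaurentSeries Qb) * y₀) ^ m ∈ A0 Qb N := by
    obtain ⟨m', rfl⟩ : ∃ m', m = m' + 1 := ⟨m - 1, by omega⟩
    have e : ((b : LaurentSeries Qb) * y₀) ^ (m' + 1) = (b : LaurentSeries Qb) ^ m' * a := by
      rw [← h1]; ring
    rw [e]
    exact mul_mem (pow_mem b.2 _) a.2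
  obtain ⟨c, hc0, hc, n, hn⟩ := exists_norm hq hA hyA (pow_ne_zero m hy10)
  obtain ⟨d, hd⟩ := IsAlgClosed.exists_pow_nat_eq c hm
  have hd0 : d ≠ 0 := by
    rintro rfl
    rw [zero_pow hm.ne'] at hd
    exact hc0 hd.symm
  have hpow : (HahnSeries.C d * ((b : LaurentSeries Qb) * y₀)) ^ m =
      HahnSeries.C c * ((b : LaurentSeries Qb) * y₀) ^ m := by
    rw [mul_pow, ← map_pow, hd]
  refine ⟨HahnSeries.C d * ((b : LaurentSeries Qb) * y₀), mul_ne_zero ?_ hy10,
    xSer_C_mul _ hy1, ?_, n, ?_⟩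
  · intro h
    rw [← map_zero (HahnSeries.C : Qb →+* LaurentSeries Qb)] at h
    exact hd0 (HahnSeries.C_injective h)
  · rw [hpow]
    exact hc
  · rw [hpow]
    exact hn

end Qb

end Fermat.Agent.CD
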