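import Mathlib
import Fermat.Agent.CD.LdB
import Fermat.Agent.Flat.Conc4

/-!
# Good reduction at the big place
-/

set_option autoImplicit false
set_option linter.unusedSectionVars false

open ModularCurve Fermat.Agent.ModFun Fermat.Agent.ESCore IntermediateField Fermat.Agent.LG
open IsLocalRing Fermat.Agent.Flat Polynomial
open CongruenceSubgroup (Gamma0)
open scoped MatrixGroups IntermediateField.algebraAdjoinAdjoin

noncomputable section

namespace Fermat.Agent.CD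

section Abs

variable {Ω Ω' : Type*} [Field Ω] [Field Ω'] {A : ValuationSubring Ω} {B : ValuationSubring Ω'}
  {ψ : Ω →+* Ω'} {ψA : A →+* B}

theorem abs_mem (hψ : ∀ a, ((ψA a : B) : Ω') = ψ a) (r : ResidueField B →+* ResidueField A)
    (hr : ∀ a : A, r (residue B (ψA a)) = residue A a) {x : LaurentSeries Ω}
    {a b : LaurentSeries A} (hb : lK A b ≠ 0) (hab : lA A b * x = lA A a) :
    ∃ h : coeffMap ψ x ∈ gA B, coeffMap r (gAR ⟨_, h⟩) = gAR ⟨x, ⟨a, b, hb, hab⟩⟩ := by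
  have e1 : ∀ a : LaurentSeries A, coeffMap ψ (lA A a) = lA B (coeffMap ψA a) := fun a => by
    ext n
    rw [coeffMap_coeff, lA_coeff, lA_coeff, coeffMap_coeff, hψ]
  have e2 : ∀ a : LaurentSeries A, coeffMap r (lK B (coeffMap ψA a)) = lK A a := fun a => by
    ext n
    rw [coeffMap_coeff, lK_coeff, coeffMap_coeff, hr, lK_coeff]
  have h1 : lA B (coeffMap ψA b) * coeffMap ψ x = lA B (coeffMap ψA a) := by
    rw [← e1, ← e1, ← map_mul, hab]
  have h2 : lK B (coeffMap ψA b) ≠ 0 := by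
    intro h0
    apply hb
    rw [← e2, h0, map_zero]
  have h3 : coeffMap ψ x ∈ gA B := ⟨_, _, h2, h1⟩
  have h4 : gAR (⟨coeffMap ψ x, h3⟩ : gA B) = lK B (coeffMap ψA a) / lK B (coeffMap ψA b) :=
    gAR_eq h2 h1
  have h5 : gAR (⟨x, ⟨a, b, hb, hab⟩⟩ : gA A) = lK A a / lK A b := gAR_eq hb hab
  refine ⟨h3, ?_⟩
  rw [h4, h5]
  rw [map_div₀ (coeffMap r)]
  rw [e2, e2]

end Abs

variable {A : ValuationSubring Qb} {q : ℕ} (P : BigPlace A q) {N : ℕ} [NeZero N]

namespace BigPlace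

theorem charZeroΩ : CharZero P.Ω := (P.ι.charZero_iff P.ι.injective).mpr inferInstance

theorem isLocalHom_res : IsLocalHom P.res := by
  refine ⟨fun y hy => ?_⟩
  by_contra hcon
  have h1 : P.B.valuation (y : P.Ω) < 1 :=
    (ValuationSubring.valuation_lt_one_iff P.B y).mp ((mem_maximalIdeal _).mpr hcon)
  rw [(P.res_ker y).mpr h1] at hy
  exact not_isUnit_zero hy

/-- the isomorphism of residue fields -/
def resK : ResidueField P.B →+* ResidueField A :=
  haveI := P.isLocalHom_res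
  ResidueField.lift P.res

theorem resK_residue (b : P.B) : P.resK (residue P.B b) = P.res b := by
  have := P.isLocalHom_res
  exact ResidueField.lift_residue_apply P.res b

/-- reduction of series -/
def ρB : gA P.B →+* LaurentSeries (ResidueField A) := (coeffMap P.resK).comp gAR

theorem ρB_lA (a : LaurentSeries P.B) : P.ρB ⟨lA P.B a, lA_mem_gA a⟩ = coeffMap P.res a := by
  rw [ρB, RingHom.comp_apply, gAR_lA]
  ext n
  rw [coeffMap_coeff, lK_coeff, coeffMap_coeff, resK_residue]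

theorem ρB_ne_zero {x : gA P.B} : P.ρB x ≠ 0 ↔ gAR x ≠ 0 := by
  rw [ρB, RingHom.comp_apply, Ne, map_eq_zero]

/-- the map of valuation rings -/
def ψA : A →+* P.B := (P.ψ.comp A.subtype).codRestrict P.B fun a => (P.ψ_mem _).mpr a.2

theorem coe_ψA (a : A) : ((P.ψA a : P.B) : P.Ω) = P.ψ a := rfl

theorem res_ψA (a : A) : P.res (P.ψA a) = residue A a := P.res_ψ a _

theorem coeffMap_lA (a : LaurentSeries A) : coeffMap P.ψ (lA A a) = lA P.B (coeffMap P.ψA a) := by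
  ext n
  rfl

theorem coeffMap_res (a : LaurentSeries A) : coeffMap P.res (coeffMap P.ψA a) = lK A a := by
  ext n
  rw [coeffMap_coeff, coeffMap_coeff, res_ψA, lK_coeff]

theorem ψ_mem_gA {x : LaurentSeries Qb} (hx : x ∈ gA A) : ∃ h : coeffMap P.ψ x ∈ gA P.B,
    P.ρB ⟨_, h⟩ = gAR ⟨x, hx⟩ := by
  have hx' := hx
  obtain ⟨a, b, hb, hab⟩ := hx'
  exact abs_mem (ψA := P.ψA) P.coe_ψA P.resK (fun a => by rw [resK_residue, res_ψA]) hb hab

/-- the Gauss valuation ring of the function field -/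
def WB (N : ℕ) [NeZero N] : Subring (F0 P.Ω N) :=
  (gA P.B).comap ((F0 P.Ω N).val : F0 P.Ω N →+* LaurentSeries P.Ω)

theorem mem_WB {x : F0 P.Ω N} : x ∈ P.WB N ↔ (x : LaurentSeries P.Ω) ∈ gA P.B := Iff.rfl

/-- reduction on the function field -/
def ρW (N : ℕ) [NeZero N] : P.WB N →+* LaurentSeries (ResidueField A) :=
  P.ρB.comp (((F0 P.Ω N).val : F0 P.Ω N →+* LaurentSeries P.Ω).restrict (P.WB N) (gA P.B)
    fun _ hx => hx)

theorem ρW_apply (x : P.WB N) : P.ρW N x = P.ρB ⟨((x : F0 P.Ω N) : LaurentSeries P.Ω), x.2⟩ := rfl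

theorem ψW_mem {x : F0 Qb N} (hx : x ∈ W0 A N) : ∃ h : liftF P.ψ N x ∈ P.WB N,
    P.ρW N ⟨_, h⟩ = ρ0 A N ⟨x, hx⟩ := P.ψ_mem_gA hx

variable {p : ℕ} [Fact p.Prime] {κ : ℤ}

/-- the parameter -/
def tΩ (H : HauptFn p κ) (hp : p ∣ N) : F0 P.Ω N := ⟨tS P.Ω p κ, tS_mem_F0 H P.ι hp⟩

theorem trans_tΩ (H : HauptFn p κ) (hp : p ∣ N) : Transcendental P.Ω (P.tΩ H hp) := by
  rw [transcendental_iff]
  intro Q hQ
  have h1 := congrArg (F0 P.Ω N).val hQ
  rw [← Polynomial.aeval_algHom_apply, map_zero] at h1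
  change aeval (tS P.Ω p κ) Q = 0 at h1
  exact (aeval_eq_zero_iff trans_tS).mp h1

theorem isAlgebraic_tΩ (H : HauptFn p κ) (hp : p ∣ N) :
    Algebra.IsAlgebraic P.Ω⟮P.tΩ H hp⟯ (F0 P.Ω N) := by
  have := P.charZeroΩ
  obtain ⟨ζ, hζ⟩ := exists_zetaΩ P.ι N
  have := finiteDimensional_F0 (K := P.Ω) (N := N) hζ
  have hfd : FiniteDimensional P.Ω⟮P.tΩ H hp⟯ (F0 P.Ω N) :=
    Fermat.Agent.FunField.finiteDimensional_adjoin (transcendental_jF (K := P.Ω) (N := N))
      (P.trans_tΩ H hp)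
  exact Algebra.IsAlgebraic.of_finite _ _

theorem tS_mem : ∃ h : tS P.Ω p κ ∈ gA P.B, P.ρB ⟨_, h⟩ = tS (ResidueField A) p κ := by
  have h1 : lA P.B (tS P.B p κ) = tS P.Ω p κ := coeffMap_tS _ p κ
  have h2 : coeffMap P.res (tS P.B p κ) = tS (ResidueField A) p κ := coeffMap_tS _ p κ
  refine ⟨by rw [← h1]; exact lA_mem_gA _, ?_⟩
  rw [← h2, ← ρB_lA]
  congr 1

/-- **good reduction at the big place**, with the same basis -/
theorem pre {H : HauptFn p κ} {hp : p ∣ N} {d : ℕ} {e : Fin d → F0 Qb N}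
    (h : Pre (residue A) (W0 A N) (ρ0 A N) (tF H hp) (tS (ResidueField A) p κ) e) :
    Pre P.res (P.WB N) (P.ρW N) (P.tΩ H hp) (tS (ResidueField A) p κ)
      (fun i => liftF P.ψ N (e i)) where
  surj := P.res_surj
  unit := fun a ha => by
    rw [Ne, P.res_ker, not_lt] at ha
    rw [← P.B.valuation_le_one_iff, map_inv₀]
    exact inv_le_one_of_one_le₀ ha
  alg := fun a ha => by
    rw [mem_WB]
    have h1 : ((algebraMap P.Ω (F0 P.Ω N) a : F0 P.Ω N) : LaurentSeries P.Ω) = HahnSeries.C a :=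
      algebraMap_laurent P.Ω a
    rw [h1]
    exact C_mem_gA ⟨a, ha⟩
  ralg := fun a ha => by
    have h1 : ((algebraMap P.Ω (F0 P.Ω N) a : F0 P.Ω N) : LaurentSeries P.Ω) =
        HahnSeries.C (a : P.Ω) := algebraMap_laurent P.Ω (a : P.Ω)
    rw [algebraMap_laurent, ρW_apply]
    have h2 : (⟨((algebraMap P.Ω (F0 P.Ω N) a : F0 P.Ω N) : LaurentSeries P.Ω), ha⟩ : gA P.B) =
        ⟨lA P.B (HahnSeries.C a), lA_mem_gA _⟩ := Subtype.ext (h1.trans (lA_C a).symm)
    refine (congrArg P.ρB h2).trans ?_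
    rw [ρB_lA, HahnSeries.C_apply, coeffMap_single]
    rfl
  runit := fun z hz => by
    rw [mem_WB, IntermediateField.coe_inv]
    exact inv_mem_gA (x := ⟨_, z.2⟩) (P.ρB_ne_zero.mp hz)
  tW := P.tS_mem.1
  tρ := P.tS_mem.2
  tr := P.trans_tΩ H hp
  trb := trans_tS
  eW := fun i => (P.ψW_mem (h.eW i)).1
  span := fun x => by
    refine span_of_level P.ψ e (fun y => ?_) (P.tΩ H hp) rfl (P.isAlgebraic_tΩ H hp) x
    obtain ⟨Q, R, hQ, hy⟩ := h.span y
    refine ⟨Q, R, hQ, ?_⟩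
    have h1 : ∀ Q : Polynomial Qb, ((aeval (tF H hp) Q : F0 Qb N) : LaurentSeries Qb) =
        aeval (tS Qb p κ) Q := fun Q => by
      change (F0 Qb N).val (aeval (tF H hp) Q) = _
      rw [← Polynomial.aeval_algHom_apply]
      rfl
    have h2 := congrArg (F0 Qb N).val hy
    rw [map_mul, map_sum] at h2
    simp only [map_mul] at h2
    change ((aeval (tF H hp) Q : F0 Qb N) : LaurentSeries Qb) * (y : LaurentSeries Qb) =
      ∑ i, ((aeval (tF H hp) (R i) : F0 Qb N) : LaurentSeries Qb) * (e i : LaurentSeries Qb) at h2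
    simp only [h1] at h2
    exact h2
  ind := fun R hR => by
    apply h.ind R
    rw [← hR]
    refine Finset.sum_congr rfl fun i _ => ?_
    rw [(P.ψW_mem (h.eW i)).2]

/-- the reductions lie in the same field -/
theorem ρW_mem {H : HauptFn p κ} {hp : p ∣ N} {d : ℕ} {e : Fin d → F0 Qb N}
    (h : Pre (residue A) (W0 A N) (ρ0 A N) (tF H hp) (tS (ResidueField A) p κ) e)
    (x : P.WB N) : P.ρW N x ∈ h.Fb := by
  have h' := P.pre h
  obtain ⟨Q, R, hQ, hx⟩ := h'.span' (x : F0 P.Ω N)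
  obtain ⟨R', hR'⟩ := h'.exists_coeff x.2 hx
  have hx2 : (h'.evW Q : F0 P.Ω N) * x = ∑ i, (h'.evW (R' i) : F0 P.Ω N) * liftF P.ψ N (e i) := by
    rw [hx]
    refine Finset.sum_congr rfl fun i _ => ?_
    rw [h'.coe_evW, hR']
  obtain ⟨hxW, h1⟩ := h'.mem_of_eq hQ hx2
  have hQ0 : aeval (tS (ResidueField A) p κ) (Q.map P.res) ≠ 0 := by
    rw [Ne, aeval_eq_zero_iff trans_tS]
    exact hQ
  have h2 : ∀ S : Polynomial (ResidueField A), aeval (tS (ResidueField A) p κ) S ∈ h.Fb := by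
    intro S
    rw [← h.coe_aeval]
    exact Subtype.property _
  have h3 : P.ρW N x = (∑ i, aeval (tS (ResidueField A) p κ) ((R' i).map P.res) *
      P.ρW N ⟨liftF P.ψ N (e i), h'.eW i⟩) / aeval (tS (ResidueField A) p κ) (Q.map P.res) := by
    rw [eq_div_iff hQ0, mul_comm]
    exact h1
  rw [h3]
  refine div_mem (sum_mem fun i _ => mul_mem (h2 _) ?_) (h2 _)
  rw [(P.ψW_mem (h.eW i)).2]
  exact ⟨⟨e i, h.eW i⟩, rfl⟩

end BigPlace

end Fermat.Agent.CD
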