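import Mathlib
import Fermat.Agent.CD.LdC
import Fermat.Agent.Lf.LevB

/-!
# The complex side of the lifting of torsion line bundles
-/

set_option autoImplicit false
set_option linter.unusedSectionVars false

open ModularCurve Fermat.Agent.ModFun Fermat.Agent.ESCore IntermediateField Fermat.Agent.LG
open IsLocalRing Fermat.Agent.Flat AlgebraicCurve
open CongruenceSubgroup (Gamma0)
open scoped MatrixGroups IntermediateField.algebraAdjoinAdjoin

noncomputable section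

namespace Fermat.Agent.CD

section Gen

variable {K : Type*} [Field K] [IsAlgClosed K] [CharZero K] {ι : K →+* ℂ} {N : ℕ} [NeZero N]

/-- divisible functions are, up to powers, powers of series with character -/
theorem exists_xSer_of_dvd_gen {m : ℕ} (hm : 0 < m) {f : F0 K N} (hf : f ≠ 0)
    (hdvd : ∀ v : Place K (F0 K N), (m : ℤ) ∣ v.ord f) :
    ∃ χ ∈ XG N m, ∃ y : LaurentSeries K, y ≠ 0 ∧ XSer ι N χ y ∧ ∃ u : F0 K N, u ≠ 0 ∧
      y ^ m = (f : LaurentSeries K) * (u : LaurentSeries K) ^ m := by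
  obtain ⟨a, b, hb, hab⟩ := IsFractionRing.div_surjective (A := Algebra.adjoin K (gens K N)) f
  have hb0 : b ≠ 0 := nonZeroDivisors.ne_zero hb
  have hb1 : algebraMap (A0 K N) (F0 K N) b ≠ 0 := by
    intro h
    exact hb0 ((IsFractionRing.to_map_eq_zero_iff (K := F0 K N)).mp h)
  set b' := algebraMap (A0 K N) (F0 K N) b with hb'
  have hle : A0 K N ≤ holC ι N := Algebra.adjoin_le gens_subset_holC
  have hz : XSer ι N 1 ((f * b' ^ m : F0 K N) : LaurentSeries K) := by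
    have h1 : f * b' ^ m = algebraMap (A0 K N) (F0 K N) (a * b ^ (m - 1)) := by
      obtain ⟨m', rfl⟩ : ∃ m', m = m' + 1 := ⟨m - 1, by omega⟩
      rw [← hab, Nat.add_sub_cancel, map_mul, map_pow, pow_succ]
      field_simp
      rfl
    rw [h1]
    exact xSer_one_iff.mpr (hle (a * b ^ (m - 1)).2)
  have hz0 : f * b' ^ m ≠ 0 := mul_ne_zero hf (pow_ne_zero _ hb1)
  obtain ⟨χ, hχ, y, hy0, hy, hym⟩ := exists_xSer_of_dvd' hm hz0 hz fun v => by
    rw [v.ord_mul hf (pow_ne_zero _ hb1), ord_pow]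
    exact dvd_add (hdvd v) (dvd_mul_right _ _)
  exact ⟨χ, hχ, y, hy0, hy, b', hb1, hym⟩

/-- roots of unity of a field of Laurent series are constants -/
theorem exists_const {m : ℕ} (hm : 0 < m) {x : LaurentSeries K} (hx : x ^ m = 1) :
    ∃ c : K, c ≠ 0 ∧ x = HahnSeries.C c := by
  have h3 : IsIntegral K x := by
    refine IsIntegral.of_pow hm ?_
    rw [hx]
    exact isIntegral_one
  obtain ⟨a, ha⟩ := minpoly.mem_range_of_degree_eq_one K _
    (IsAlgClosed.degree_eq_one_of_irreducible K (minpoly.irreducible h3))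
  have h4 : x = HahnSeries.C a := by
    rw [← ha, algebraMap_laurent]
  refine ⟨a, ?_, h4⟩
  rintro rfl
  rw [h4, map_zero, zero_pow hm.ne'] at hx
  exact zero_ne_one hx

end Gen

section Arch

variable {A : ValuationSubring Qb} {q : ℕ}

/-- the big valuation ring is completely integrally closed -/
theorem BigPlace.arch (P : BigPlace A q) (hq : q.Prime) (hA : A.LiesOverPrime q) :
    Arch P.B.toSubring := by
  intro d f hd hdf
  by_contra hf
  have hf1 : 1 < P.B.valuation f := by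
    rw [← not_le, P.B.valuation_le_one_iff]
    exact hf
  have hf0 : f ≠ 0 := by
    rintro rfl
    rw [map_zero] at hf1
    exact absurd hf1 (not_lt.mpr zero_le)
  obtain ⟨a, ha0, ha⟩ := P.val d hd
  obtain ⟨b, hb0, hb⟩ := P.val f hf0
  have h1 : ∀ i : ℕ, A.valuation (a * b ^ i) ≤ 1 := by
    intro i
    rw [← P.ψ_le, map_mul, map_pow, map_mul, map_pow, ← ha, ← hb, ← map_pow, ← map_mul]
    exact (P.B.valuation_le_one_iff _).mpr (hdf i)
  have h2 : 1 < A.valuation b := by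
    rw [← not_le, ← P.ψ_le, ← hb, not_le]
    exact hf1
  have hvq : A.valuation (q : Qb) < 1 := hA
  have hq0 : A.valuation (q : Qb) ≠ 0 := val_q_ne_zero hq
  obtain ⟨t, ht, s, hs⟩ := EC.exists_pow_val (v := A.valuation) hq hvq ha0
  obtain ⟨t', ht', s', hs'⟩ := EC.exists_pow_val (v := A.valuation) hq hvq hb0
  have key : ∀ n : ℤ, A.valuation (q : Qb) ^ n ≤ 1 → 0 ≤ n := by
    intro n hn
    by_contra hcon
    push Not at hcon
    obtain ⟨k, rfl⟩ : ∃ k : ℕ, n = -k := ⟨n.natAbs, by omega⟩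
    have hk : k ≠ 0 := by omega
    rw [zpow_neg, zpow_natCast, inv_le_one₀ (pow_pos (zero_lt_iff.mpr hq0) _)] at hn
    exact absurd (pow_lt_one₀ zero_le hvq hk) (not_lt.mpr hn)
  have hs'0 : s' < 0 := by
    by_contra hcon
    push Not at hcon
    obtain ⟨k, rfl⟩ : ∃ k : ℕ, s' = k := ⟨s'.natAbs, by omega⟩
    rw [zpow_natCast] at hs'
    have h3 : 1 < A.valuation b ^ t' := one_lt_pow₀ h2 ht'.ne'
    rw [hs'] at h3
    exact absurd h3 (not_lt.mpr (pow_le_one₀ zero_le hvq.le))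
  have h3 : ∀ i : ℕ, 0 ≤ s * t' + s' * (t * i) := by
    intro i
    apply key
    have h4 : A.valuation (a * b ^ i) ^ (t * t') ≤ 1 := pow_le_one₀ zero_le (h1 i)
    have h5 : A.valuation (a * b ^ i) ^ (t * t') =
        A.valuation (q : Qb) ^ (s * t' + s' * (t * i)) := by
      rw [map_mul, map_pow, mul_pow, pow_mul, hs, ← pow_mul, zpow_add₀ hq0, zpow_mul, zpow_natCast]
      congr 1
      have e : i * (t * t') = t' * (t * i) := by ring
      rw [e, pow_mul, hs', zpow_mul]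
      congr 1
    rw [h5] at h4
    exact h4
  have h5 : (s * t' : ℤ) ≤ ((s * t').natAbs : ℤ) := Int.le_natAbs
  obtain ⟨n, hn⟩ : ∃ n : ℕ, n = (s * t').natAbs + 1 := ⟨_, rfl⟩
  have h4 := h3 n
  have hn1 : (n : ℤ) = ((s * t').natAbs : ℤ) + 1 := by rw [hn]; push_cast; rfl
  have h7 : (1 : ℤ) ≤ t := by exact_mod_cast ht
  have h8 : (0 : ℤ) ≤ n := Int.natCast_nonneg n
  have h9 : (n : ℤ) ≤ t * n := le_mul_of_one_le_left h8 h7
  have h10 : s' * (t * n) ≤ -1 * (t * n) :=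
    mul_le_mul_of_nonneg_right (by omega) (h8.trans h9)
  omega

end Arch

section Core

variable {A : ValuationSubring Qb} {q : ℕ} (P : BigPlace A q) {N : ℕ} [NeZero N]

theorem coeffMap_ψ_mem_cf {x : LaurentSeries Qb} (hx : x ∈ cf A.toSubring) :
    coeffMap P.ψ x ∈ cf P.B.toSubring := by
  rw [mem_cf] at hx ⊢
  intro n
  rw [coeffMap_coeff]
  exact (P.ψ_mem _).mpr (hx n)

theorem mem_cf_of_coeffMap_ψ {x : LaurentSeries Qb} (hx : coeffMap P.ψ x ∈ cf P.B.toSubring) :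
    x ∈ cf A.toSubring := by
  rw [mem_cf] at hx ⊢
  intro n
  have h1 := hx n
  rw [coeffMap_coeff] at h1
  exact (P.ψ_mem _).mp h1

/-- series with coefficients in the big valuation ring -/
theorem mem_gA_of_cf {Ω : Type*} [Field Ω] {B : ValuationSubring Ω} {x : LaurentSeries Ω}
    (hx : x ∈ cf B.toSubring) : ∃ a : LaurentSeries B, x = lA B a := by
  obtain ⟨a, ha⟩ := hx
  exact ⟨a, ha.symm⟩

/-- The comparison of a series `G` over the complete ring with a normalised series with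
character. -/
theorem core_div (hq : q.Prime) (hA : A.LiesOverPrime q) {m : ℕ} (hm : 0 < m)
    {y : LaurentSeries Qb} (hym : y ^ m ∈ cf A.toSubring) {G : LaurentSeries P.Ω}
    (hG : G ∈ cf P.B.toSubring) (hG0 : G ≠ 0) {g : F0 P.Ω N}
    (hGg : G = coeffMap P.ψ y * (g : LaurentSeries P.Ω)) : y ∈ cf A.toSubring := by
  apply mem_cf_of_coeffMap_ψ P
  obtain ⟨a, b, hb, hab⟩ := IsFractionRing.div_surjective (A := Algebra.adjoin P.Ω (gens P.Ω N)) g
  have hb0 : b ≠ 0 := nonZeroDivisors.ne_zero hb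
  have hb1 : (b : LaurentSeries P.Ω) ≠ 0 := fun h => hb0 (Subtype.ext h)
  have h1 : (g : LaurentSeries P.Ω) * (b : LaurentSeries P.Ω) = (a : LaurentSeries P.Ω) := by
    have h2 := congrArg (fun z : F0 P.Ω N => (z : LaurentSeries P.Ω)) hab
    change (a : LaurentSeries P.Ω) / (b : LaurentSeries P.Ω) = g at h2
    rw [← h2, div_mul_cancel₀ _ hb1]
  obtain ⟨c, hc, hc0, hca⟩ := exists_bdd P.B a.2
  obtain ⟨c', hc', hc0', hcb⟩ := exists_bdd P.B b.2
  have hC : ∀ c : P.Ω, c ≠ 0 → (HahnSeries.C c : LaurentSeries P.Ω) ≠ 0 := by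
    intro c hc h
    rw [← map_zero (HahnSeries.C : P.Ω →+* LaurentSeries P.Ω)] at h
    exact hc (HahnSeries.C_injective h)
  have ha0 : (a : LaurentSeries P.Ω) ≠ 0 := by
    intro h
    rw [h] at h1
    rcases mul_eq_zero.mp h1 with h2 | h2
    · rw [h2, mul_zero] at hGg
      exact hG0 hGg
    · exact hb1 h2
  refine root_mem (P.arch hq hA) (D := HahnSeries.C c' * (HahnSeries.C c * (a : LaurentSeries P.Ω)))
    (mul_ne_zero (hC _ hc0') (mul_ne_zero (hC _ hc0) ha0)) hm ?_ ?_ ?_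
  · rw [← map_pow]
    exact coeffMap_ψ_mem_cf P hym
  · exact mul_mem (C_mem_cf hc') hca
  · have e : HahnSeries.C c' * (HahnSeries.C c * (a : LaurentSeries P.Ω)) * coeffMap P.ψ y =
        HahnSeries.C c * (G * (HahnSeries.C c' * (b : LaurentSeries P.Ω))) := by
      rw [hGg, ← h1]
      ring
    rw [e]
    exact mul_mem (C_mem_cf hc) (mul_mem hG hcb)

variable {p : ℕ} [Fact p.Prime] {κ : ℤ}

theorem core_red {H : HauptFn p κ} {hp : p ∣ N} {d : ℕ} {e : Fin d → F0 Qb N}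
    (h : Pre (residue A) (W0 A N) (ρ0 A N) (tF H hp) (tS (ResidueField A) p κ) e)
    {y : LaurentSeries Qb} {a : LaurentSeries A} (hya : y = lA A a) (ha : lK A a ≠ 0)
    {G : LaurentSeries P.Ω} {b : LaurentSeries P.B} (hGb : G = lA P.B b)
    (hb : coeffMap P.res b ≠ 0) {g : F0 P.Ω N}
    (hGg : G = coeffMap P.ψ y * (g : LaurentSeries P.Ω)) :
    ∃ hy : y ∈ gA A, ∃ f ∈ h.Fb, f ≠ 0 ∧ gAR ⟨y, hy⟩ * f = coeffMap P.res b := by
  subst hya
  refine ⟨lA_mem_gA a, ?_⟩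
  rw [gAR_lA]
  have h1 : lA P.B b = lA P.B (coeffMap P.ψA a) * (g : LaurentSeries P.Ω) := by
    rw [← hGb, hGg, P.coeffMap_lA]
  have h2 : lK P.B (coeffMap P.ψA a) ≠ 0 := by
    intro h0
    apply ha
    have h3 := P.ρB_lA (coeffMap P.ψA a)
    rw [P.coeffMap_res, BigPlace.ρB, RingHom.comp_apply, gAR_lA, h0, map_zero] at h3
    exact h3.symm
  have hg : (g : LaurentSeries P.Ω) ∈ gA P.B := ⟨b, coeffMap P.ψA a, h2, h1.symm⟩
  have hgW : g ∈ P.WB N := hg
  have h3 : (⟨lA P.B (coeffMap P.ψA a), lA_mem_gA _⟩ : gA P.B) * ⟨(g : LaurentSeries P.Ω), hg⟩ =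
      ⟨lA P.B b, lA_mem_gA _⟩ := Subtype.ext h1.symm
  have h4 := congrArg P.ρB h3
  rw [map_mul, P.ρB_lA, P.ρB_lA, P.coeffMap_res] at h4
  refine ⟨P.ρW N ⟨g, hgW⟩, P.ρW_mem h ⟨g, hgW⟩, ?_, h4⟩
  intro h0
  apply hb
  rw [← h4]
  change lK A a * P.ρW N ⟨g, hgW⟩ = 0
  rw [h0, mul_zero]

/-- (iii)+(iv), general version -/
theorem ld_core_gen (hq : q.Prime) (hA : A.LiesOverPrime q) {H : HauptFn p κ} {hp : p ∣ N} {d : ℕ}
    {e : Fin d → F0 Qb N}
    (h : Pre (residue A) (W0 A N) (ρ0 A N) (tF H hp) (tS (ResidueField A) p κ) e)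
    {m : ℕ} (hm : 0 < m) {w : PowerSeries P.O} {n : ℕ} {z : F0 P.Ω N}
    (hz : HahnSeries.ofPowerSeries ℤ _ (PowerSeries.map P.j w) ^ m =
      (z : LaurentSeries P.Ω) * Lf.xs P.Ω ^ (m * n))
    (hdvd : ∀ v : Place P.Ω (F0 P.Ω N), (m : ℤ) ∣ v.ord z)
    (hu : IsUnit (PowerSeries.map P.red w)) :
    ∃ χ ∈ XG N m, (∃ y₁ : LaurentSeries P.Ω, y₁ ≠ 0 ∧ XSer P.ι N χ y₁ ∧ ∃ u : F0 P.Ω N, u ≠ 0 ∧
      y₁ ^ m = (z : LaurentSeries P.Ω) * (u : LaurentSeries P.Ω) ^ m) ∧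
      ∃ y : LaurentSeries Qb, y ≠ 0 ∧ XSer ιC N χ y ∧ ∃ hy : y ∈ gA A,
      ∃ f ∈ h.Fb, f ≠ 0 ∧ gAR ⟨y, hy⟩ * f * Lf.xs (ResidueField A) ^ n =
        HahnSeries.ofPowerSeries ℤ _ (PowerSeries.map P.red w) := by
  have := P.charZeroΩ
  -- the series `G`
  have hxs : ∀ k : ℕ, Lf.xs P.Ω ^ k ≠ 0 := fun k => pow_ne_zero _ Lf.xs_ne
  have hxk : ∀ k : ℕ, Lf.xs (ResidueField A) ^ k ≠ 0 := fun k => pow_ne_zero _ Lf.xs_ne
  let b₀ : PowerSeries P.B := PowerSeries.mk fun k =>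
    ⟨P.j (PowerSeries.coeff k w), P.j_mem _⟩
  let b : LaurentSeries P.B := HahnSeries.single (-(n : ℤ)) 1 * HahnSeries.ofPowerSeries ℤ P.B b₀
  have hxinv : (HahnSeries.single (-(n : ℤ)) (1 : P.Ω) : LaurentSeries P.Ω) *
      Lf.xs P.Ω ^ n = 1 := by
    rw [Lf.xs_eq, HahnSeries.single_pow, one_pow, HahnSeries.single_mul_single, mul_one]
    have h1 : -(n : ℤ) + n • (1 : ℤ) = 0 := by simp
    rw [h1]
    rfl
  have hxinvk : (HahnSeries.single (-(n : ℤ)) (1 : ResidueField A) :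
      LaurentSeries (ResidueField A)) * Lf.xs (ResidueField A) ^ n = 1 := by
    rw [Lf.xs_eq, HahnSeries.single_pow, one_pow, HahnSeries.single_mul_single, mul_one]
    have h1 : -(n : ℤ) + n • (1 : ℤ) = 0 := by simp
    rw [h1]
    rfl
  have hcm : ∀ {R S : Type} [CommRing R] [CommRing S] (f : R →+* S) (Q : PowerSeries R),
      coeffMap f (HahnSeries.single (-(n : ℤ)) 1 * HahnSeries.ofPowerSeries ℤ R Q) =
      HahnSeries.single (-(n : ℤ)) 1 * HahnSeries.ofPowerSeries ℤ S (PowerSeries.map f Q) := by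
    intro R S _ _ f Q
    rw [map_mul, coeffMap_single, map_one, coeffMap_ofPowerSeries']
  have hb1 : lA P.B b = HahnSeries.single (-(n : ℤ)) 1 *
      HahnSeries.ofPowerSeries ℤ P.Ω (PowerSeries.map P.j w) := by
    have h1 : lA P.B b = _ := hcm P.B.subtype b₀
    rw [h1]
    congr 2
    ext k
    rw [PowerSeries.coeff_map, PowerSeries.coeff_map, PowerSeries.coeff_mk]
    rfl
  have hb2 : coeffMap P.res b = HahnSeries.single (-(n : ℤ)) 1 *
      HahnSeries.ofPowerSeries ℤ (ResidueField A) (PowerSeries.map P.red w) := by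
    have h1 : coeffMap P.res b = _ := hcm P.res b₀
    rw [h1]
    congr 2
    ext k
    rw [PowerSeries.coeff_map, PowerSeries.coeff_map, PowerSeries.coeff_mk]
    exact P.res_j _
  clear_value b
  have hGm : (lA P.B b) ^ m = (z : LaurentSeries P.Ω) := by
    rw [hb1, mul_pow, hz, mul_comm m n, pow_mul]
    have h1 := congrArg (fun t => t ^ m) hxinv
    simp only [mul_pow, one_pow] at h1
    linear_combination (z : LaurentSeries P.Ω) * h1
  obtain ⟨G, hG⟩ : ∃ G, G = lA P.B b := ⟨_, rfl⟩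
  rw [← hG] at hGm hb1
  have hbr : coeffMap P.res b ≠ 0 := by
    rw [hb2]
    refine mul_ne_zero (left_ne_zero_of_mul_eq_one hxinvk) ?_
    intro h0
    have h1 : PowerSeries.map P.red w = 0 := HahnSeries.ofPowerSeries_injective (by rw [h0, map_zero])
    rw [h1] at hu
    exact not_isUnit_zero hu
  have hG0 : G ≠ 0 := by
    intro h0
    apply hbr
    have h1 : b = 0 := lA_injective P.B (by rw [← hG, h0, map_zero])
    rw [h1, map_zero]
  have hz0 : z ≠ 0 := by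
    rintro rfl
    exact pow_ne_zero m hG0 hGm
  obtain ⟨χ, hχ, y₁, hy₁0, hy₁, u, hu0, hyu⟩ := exists_xSer_of_dvd_gen (ι := P.ι) hm hz0 hdvd
  obtain ⟨y, hy0, hy, hym, k, hk⟩ := exists_norm_xSer hq hA hm ⟨χ, hχ⟩
  have hψx : XSer P.ι N χ (coeffMap P.ψ y) := hy.coeffMap P.ψ P.ι_ψ
  have hψ0 : coeffMap P.ψ y ≠ 0 := (map_ne_zero _).mpr hy0
  have hu0' : (u : LaurentSeries P.Ω) ≠ 0 := fun h => hu0 (Subtype.ext h)
  have hg₁ : y₁ / coeffMap P.ψ y ∈ F0 P.Ω N := hψx.div_mem hm hχ.1 hψ0 hy₁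
  have hroot : (G * (u : LaurentSeries P.Ω) / y₁) ^ m = 1 := by
    rw [div_pow, mul_pow, hGm, ← hyu, div_self (pow_ne_zero _ hy₁0)]
  obtain ⟨c, hc0, hc⟩ := exists_const hm hroot
  let g : F0 P.Ω N := algebraMap P.Ω (F0 P.Ω N) c * ⟨_, hg₁⟩ / u
  have hg : (g : LaurentSeries P.Ω) =
      HahnSeries.C c * (y₁ / coeffMap P.ψ y) / (u : LaurentSeries P.Ω) := by
    change algebraMap P.Ω (LaurentSeries P.Ω) c * (y₁ / coeffMap P.ψ y) /
      (u : LaurentSeries P.Ω) = _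
    rw [algebraMap_laurent]
  have hGg : G = coeffMap P.ψ y * (g : LaurentSeries P.Ω) := by
    rw [hg, ← hc]
    field_simp
  have hGcf : G ∈ cf P.B.toSubring := by
    rw [hG]
    exact ⟨b, rfl⟩
  have hycf := core_div P hq hA hm hym hGcf hG0 hGg
  obtain ⟨a, ha⟩ := mem_gA_of_cf (B := A) hycf
  have ha0 : lK A a ≠ 0 := by
    intro h0
    have h1 : (a ^ m).coeff k = 1 := by
      apply Subtype.ext
      have h2 : lA A (a ^ m) = y ^ m := by rw [map_pow, ← ha]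
      have h3 := congrArg (fun x : LaurentSeries Qb => x.coeff k) h2
      exact h3.trans hk
    have h2 : (lK A (a ^ m)).coeff k = 1 := by
      rw [lK_coeff, h1, map_one]
    rw [map_pow, h0, zero_pow hm.ne'] at h2
    exact zero_ne_one h2
  obtain ⟨hyA, f, hf, hf0, hfy⟩ := core_red P h ha ha0 hG hbr hGg
  refine ⟨χ, hχ, ⟨y₁, hy₁0, hy₁, u, hu0, hyu⟩, y, hy0, hy, hyA, f, hf, hf0, ?_⟩
  rw [hfy, hb2, mul_comm, ← mul_assoc, mul_comm (Lf.xs (ResidueField A) ^ n), hxinvk, one_mul]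

/-- (iii)+(iv) -/
theorem ld_core (hq : q.Prime) (hA : A.LiesOverPrime q) {H : HauptFn p κ} {hp : p ∣ N} {d : ℕ}
    {e : Fin d → F0 Qb N}
    (h : Pre (residue A) (W0 A N) (ρ0 A N) (tF H hp) (tS (ResidueField A) p κ) e)
    {m : ℕ} (hm : 0 < m) {w : PowerSeries P.O} {n : ℕ} {z : F0 P.Ω N}
    (hz : HahnSeries.ofPowerSeries ℤ _ (PowerSeries.map P.j w) ^ m =
      (z : LaurentSeries P.Ω) * Lf.xs P.Ω ^ (m * n))
    (hdvd : ∀ v : Place P.Ω (F0 P.Ω N), (m : ℤ) ∣ v.ord z)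
    (hu : IsUnit (PowerSeries.map P.red w)) :
    ∃ χ ∈ XG N m, ∃ y : LaurentSeries Qb, y ≠ 0 ∧ XSer ιC N χ y ∧ ∃ hy : y ∈ gA A,
      ∃ f ∈ h.Fb, f ≠ 0 ∧ gAR ⟨y, hy⟩ * f * Lf.xs (ResidueField A) ^ n =
        HahnSeries.ofPowerSeries ℤ _ (PowerSeries.map P.red w) := by
  obtain ⟨χ, hχ, -, h1⟩ := ld_core_gen P hq hA h hm hz hdvd hu
  exact ⟨χ, hχ, h1⟩

end Core

end Fermat.Agent.CD
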