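import Mathlib
import Fermat.Agent.LG.LiftA

/-!
# Power series over a complete ring
-/

set_option autoImplicit false
set_option linter.unusedSectionVars false

open IsLocalRing

noncomputable section

namespace Fermat.Agent.CD

open Fermat.Agent.LG

section

theorem smodEq_iff' {R : Type*} [CommRing R] {π : R} {n : ℕ} {x y : R} :
    x ≡ y [SMOD (Ideal.span {π} ^ n • ⊤ : Submodule R R)] ↔ π ^ n ∣ x - y := by
  rw [SModEq.sub_mem, smul_eq_mul, Ideal.mul_top, Ideal.span_singleton_pow,
    Ideal.mem_span_singleton]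

variable {O : Type*} [CommRing O] {π : O}

theorem C_dvd_iff {a : O} {f : PowerSeries O} :
    PowerSeries.C a ∣ f ↔ ∀ n, a ∣ PowerSeries.coeff n f := by
  constructor
  · rintro ⟨g, rfl⟩ n
    rw [PowerSeries.coeff_C_mul]
    exact dvd_mul_right _ _
  · intro h
    choose c hc using h
    refine ⟨PowerSeries.mk c, ?_⟩
    ext n
    rw [PowerSeries.coeff_C_mul, PowerSeries.coeff_mk]
    exact hc n

theorem C_pow_dvd_iff {n : ℕ} {f : PowerSeries O} :
    PowerSeries.C π ^ n ∣ f ↔ ∀ m, π ^ n ∣ PowerSeries.coeff m f := by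
  rw [← map_pow, C_dvd_iff]

theorem isAdicComplete_ps [IsAdicComplete (Ideal.span {π}) O] :
    IsAdicComplete (Ideal.span {PowerSeries.C π}) (PowerSeries O) where
  haus' f hf := by
    ext m
    rw [map_zero]
    apply eq_zero_of_dvd (π := π)
    intro n
    have h1 := smodEq_iff'.mp (hf n)
    rw [sub_zero, C_pow_dvd_iff] at h1
    exact h1 m
  prec' f hf := by
    have h1 : ∀ m : ℕ, ∀ n, π ^ n ∣ PowerSeries.coeff m (f (n + 1)) - PowerSeries.coeff m (f n) := by
      intro m n
      have h2 := smodEq_iff'.mp (hf (Nat.le_succ n))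
      rw [C_pow_dvd_iff] at h2
      have h3 := h2 m
      rw [map_sub] at h3
      rw [← neg_sub, dvd_neg]
      exact h3
    choose g hg using fun m => exists_lim (π := π)
      (f := fun n => PowerSeries.coeff m (f n)) (h1 m)
    refine ⟨PowerSeries.mk g, fun n => ?_⟩
    rw [smodEq_iff', C_pow_dvd_iff]
    intro m
    rw [map_sub, PowerSeries.coeff_mk, ← neg_sub, dvd_neg]
    exact hg m n

theorem ps_nzd (h : ∀ x : O, π * x = 0 → x = 0) (f : PowerSeries O)
    (hf : PowerSeries.C π * f = 0) : f = 0 := by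
  ext n
  have h1 := congrArg (PowerSeries.coeff n) hf
  rw [PowerSeries.coeff_C_mul, map_zero] at h1
  rw [h _ h1, map_zero]

theorem ps_red {k : Type*} [CommRing k] (r : O →+* k) (hr : ∀ x, r x = 0 ↔ π ∣ x)
    (f : PowerSeries O) : PowerSeries.map r f = 0 ↔ PowerSeries.C π ∣ f := by
  rw [C_dvd_iff]
  constructor
  · intro h n
    have h1 := congrArg (PowerSeries.coeff n) h
    rw [PowerSeries.coeff_map, map_zero, hr] at h1
    exact h1
  · intro h
    ext n
    rw [PowerSeries.coeff_map, map_zero, hr]
    exact h n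

theorem ps_surj {k : Type*} [CommRing k] {r : O →+* k} (hr : Function.Surjective r) :
    Function.Surjective (PowerSeries.map r : PowerSeries O →+* PowerSeries k) :=
  PowerSeries.map_surjective _ hr

theorem algebraMap_ps (a : O) : algebraMap O (PowerSeries O) a = PowerSeries.C a := rfl

end

end Fermat.Agent.CD
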